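/-
S59, unit C2: functionals on the classes of a level give classes by their values on crossing
homomorphisms; this assignment is Hecke equivariant, takes corestriction to restriction and
`U_q` to the upper degeneracy map, and is injective off the Eisenstein eigensystems.
-/
import Fermat.Agent.Raise.Coker
import Fermat.Agent.GalRep.Lattice
import Fermat.Agent.R59.Raised.Commute

set_option autoImplicit false
set_option linter.unusedSectionVars false
set_option linter.style.haveILetI false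

noncomputable section

namespace Fermat.Agent.R59.Raise

open CongruenceSubgroup
open Fermat.Agent.Raise (GHom ZMat ZVec zMat qMat qdet symb symb_trans symb_gamma symb_congr
  symb_swap symb_mulVec symb_eq mulVec_ne_zero qMat_det_ne castVec castVec_ne_zero castVec_mulVec
  clr clr_ne_zero qdet_clr qdet_mulVec det_qMat exists_fixed_vector exists_gamma_move exists_sl_col
  transferHom_crossHom crossHom eight_smul_mem mem_gamma0_iff_dvd IsFam zMat_mul vdet)
open Fermat.Agent.GalRep (GoodIndex heckeRep transferHom transferHom_apply trCoef trIdx trSpec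
  det_heckeRep heckeRep_one_zero ParHom exists_eq_mul_heckeRep)
open Fermat.Agent.R59.Raised (degH degH_apply_of_eq degH_one_apply corH corH_crossHom uH uRepL
  isFam_uL gamma0_anti)
open scoped MatrixGroups

/-- The first basis vector. -/
abbrev eQv : Fin 2 → ℚ := ![1, 0]

theorem eQv_ne_zero : eQv ≠ 0 := by simp [eQv]

theorem qMat_mul (A B : ZMat) : qMat (A * B) = qMat A * qMat B := by
  ext i j; simp [qMat, Matrix.mul_apply, Fin.sum_univ_two]

theorem moved_ne_zero (g : SL(2, ℤ)) : (qMat (g : ZMat)).mulVec eQv ≠ 0 :=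
  mulVec_ne_zero (qMat_det_ne g) eQv_ne_zero

section

variable {N : ℕ} {V : Type} [AddCommGroup V]

/-- The class given by a functional. -/
def dualPhi (L : GHom (Gamma0 N) ℤ →+ V) : GHom (Gamma0 N) V :=
  AddMonoidHom.mk' (fun γ => symb L eQv ((qMat ((Additive.toMul γ : Gamma0 N) : SL(2, ℤ))).mulVec eQv))
    fun γ δ => by
      obtain ⟨g, rfl⟩ := Additive.ofMul.surjective γ
      obtain ⟨h, rfl⟩ := Additive.ofMul.surjective δ
      simp only [toMul_add, toMul_ofMul, Subgroup.coe_mul, Matrix.SpecialLinearGroup.coe_mul,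
        qMat_mul, ← Matrix.mulVec_mulVec]
      rw [symb_trans L eQv_ne_zero (moved_ne_zero _)
        (mulVec_ne_zero (qMat_det_ne _) (moved_ne_zero _))]
      exact congrArg _ (symb_gamma L g.2 eQv_ne_zero (moved_ne_zero _))

theorem dualPhi_apply (L : GHom (Gamma0 N) ℤ →+ V) (γ : Gamma0 N) :
    dualPhi L (Additive.ofMul γ) = symb L eQv ((qMat (zMat γ)).mulVec eQv) := rfl

theorem dualPhi_sub (L L' : GHom (Gamma0 N) ℤ →+ V) :
    dualPhi (L - L') = dualPhi L - dualPhi L' := AddMonoidHom.ext fun _ => rfl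

theorem dualPhi_smul {R : Type} [CommRing R] [Module R V] (c : R) (L : GHom (Gamma0 N) ℤ →+ V) :
    dualPhi (c • L) = c • dualPhi L := AddMonoidHom.ext fun _ => rfl

theorem dualPhi_mem (L : GHom (Gamma0 N) ℤ →+ V) : dualPhi L ∈ ParHom N V := by
  intro γ htr
  obtain ⟨s, t, hs, ht, hts⟩ := exists_fixed_vector (γ := (γ : SL(2, ℤ))) htr
  have hs' := castVec_ne_zero hs
  have hfix : qdet ((qMat (zMat γ)).mulVec (castVec s)) (castVec s) = 0 := by
    rw [← castVec_mulVec, hts]
    simp [qdet, castVec]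
    ring
  have h1 : symb L (castVec s) eQv = symb L (castVec s) ((qMat (zMat γ)).mulVec eQv) := by
    rw [← symb_gamma L γ.2 hs' eQv_ne_zero]
    exact symb_congr L (mulVec_ne_zero (qMat_det_ne _) hs') (moved_ne_zero _) hs'
      (moved_ne_zero _) hfix (by simp only [qdet]; ring)
  rw [dualPhi_apply, symb_trans L eQv_ne_zero hs' (moved_ne_zero _), ← h1,
    symb_swap L eQv (castVec s), add_neg_cancel]

/-- The transfer by `T_ℓ` of the symbol. -/
theorem symb_comp_transfer {ℓ : ℕ} (hg : GoodIndex N ℓ) (L : GHom (Gamma0 N) ℤ →+ V)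
    {v w : Fin 2 → ℚ} (hv : v ≠ 0) (hw : w ≠ 0) :
    symb (L.comp (AddMonoidHom.mk' (transferHom (A := ℤ) hg) (GalRep.transferHom_add hg))) v w =
      ∑ i, symb L ((qMat (heckeRep ℓ i)).mulVec v) ((qMat (heckeRep ℓ i)).mulVec w) := by
  rw [symb, AddMonoidHom.comp_apply, AddMonoidHom.mk'_apply, transferHom_crossHom, map_sum]
  exact Finset.sum_congr rfl fun i _ => (symb_mulVec L
    (by rw [det_heckeRep]; exact_mod_cast hg.prime.ne_zero) hv hw).symm

theorem hre (ℓ : ℕ) (i : Option (Fin ℓ)) :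
    qdet ((qMat (heckeRep ℓ i)).mulVec eQv) eQv = 0 := by
  simp [qdet, eQv, qMat, heckeRep_one_zero]

theorem hdr {ℓ : ℕ} (hℓ : ℓ.Prime) (i : Option (Fin ℓ)) : (qMat (heckeRep ℓ i)).det ≠ 0 := by
  rw [det_qMat, det_heckeRep]; exact_mod_cast hℓ.ne_zero

/-- The assignment is Hecke equivariant. -/
theorem dualPhi_transfer {ℓ : ℕ} (hg : GoodIndex N ℓ) (L : GHom (Gamma0 N) ℤ →+ V) :
    dualPhi (L.comp (AddMonoidHom.mk' (transferHom (A := ℤ) hg) (GalRep.transferHom_add hg))) =
      transferHom hg (dualPhi L) := by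
  refine AddMonoidHom.ext fun t => ?_
  obtain ⟨γ, rfl⟩ := Additive.ofMul.surjective t
  rw [dualPhi_apply, symb_comp_transfer hg L eQv_ne_zero (moved_ne_zero _), transferHom_apply]
  refine Finset.sum_congr rfl fun i _ => ?_
  rw [dualPhi_apply]
  refine symb_congr L (mulVec_ne_zero (hdr hg.prime i) eQv_ne_zero)
    (mulVec_ne_zero (hdr hg.prime i) (moved_ne_zero _)) eQv_ne_zero (moved_ne_zero _)
    (hre ℓ i) ?_
  have e1 := congrArg qMat (trSpec hg γ i)
  rw [qMat_mul, qMat_mul] at e1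
  simp only [Matrix.mulVec_mulVec]
  rw [show qMat (heckeRep ℓ i) * qMat (zMat γ) = _ from e1, ← Matrix.mulVec_mulVec, qdet_mulVec,
    hre, mul_zero]

/-- Corestriction becomes restriction. -/
theorem dualPhi_corH {N' : ℕ} [NeZero N'] (h : N ∣ N') (h' : N * 1 ∣ N')
    (L : GHom (Gamma0 N) ℤ →+ V) :
    dualPhi (L.comp (corH h)) = degH 1 one_pos h' (dualPhi L) := by
  refine AddMonoidHom.ext fun t => ?_
  obtain ⟨γ, rfl⟩ := Additive.ofMul.surjective t
  rw [degH_one_apply, dualPhi_apply, dualPhi_apply, symb, symb, AddMonoidHom.comp_apply,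
    corH_crossHom]

/-- `U_q` from level `M q` to level `M` on crossing homomorphisms. -/
theorem uH_crossHom {q M : ℕ} (hq : q.Prime) (hqM : q ∣ M) (v w : ZVec) :
    uH hq hqM dvd_rfl (dvd_mul_left q M) (crossHom (Gamma0 (M * q)) v w) =
      crossHom (Gamma0 M) ((!![(q : ℤ), 0; 0, 1] : ZMat).mulVec v)
        ((!![(q : ℤ), 0; 0, 1] : ZMat).mulVec w) := by
  have hu := isFam_uL (L := M * q) hq hqM dvd_rfl (dvd_mul_left q M)
  have hadj : ∀ b : Fin q, (uRepL q b).adjugate = !![(q : ℤ), -((b : ℕ) : ℤ); 0, 1] := fun b => by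
    simp [uRepL, heckeRep, Matrix.adjugate_fin_two]
  have := hu.trans_crossHom (α := fun _ : Unit => (!![(q : ℤ), 0; 0, 1] : ZMat))
    (fun _ => by simp [Matrix.det_fin_two_of, hq.pos]) (fun _ _ _ _ => rfl)
    (fun b g => by
      obtain ⟨c, hc⟩ := mem_gamma0_iff_dvd.mp g.2
      have hd := Raise.det_two (g : SL(2, ℤ))
      refine ⟨(), ⟨Raise.mkSL ((g : SL(2, ℤ)) 0 0 - ((b : ℕ) : ℤ) * ((M : ℤ) * c))
        ((q : ℤ) * (g : SL(2, ℤ)) 0 1 - ((b : ℕ) : ℤ) * (g : SL(2, ℤ)) 1 1)
        ((M : ℤ) * c) ((g : SL(2, ℤ)) 1 1) (by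
          rw [hc, Nat.cast_mul] at hd; linear_combination hd),
        mem_gamma0_iff_dvd.mpr (by simp)⟩, ?_⟩
      rw [hadj]
      ext i j
      fin_cases i <;> fin_cases j <;>
        simp [zMat, Matrix.mul_apply, Fin.sum_univ_two, hc] <;> ring)
    (fun _ h => by
      haveI := Fact.mk hq
      obtain ⟨c, hc⟩ := mem_gamma0_iff_dvd.mp h.2
      have hd := Raise.det_two (h : SL(2, ℤ))
      have hh10 : (q : ℤ) ∣ (h : SL(2, ℤ)) 1 0 :=
        hc ▸ (Int.natCast_dvd_natCast.mpr hqM).mul_right _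
      have h11 : (((h : SL(2, ℤ)) 1 1 : ℤ) : ZMod q) ≠ 0 := fun h0 => by
        have := congrArg (fun z : ℤ => (z : ZMod q)) hd
        simp [(ZMod.intCast_zmod_eq_zero_iff_dvd _ _).mpr hh10] at this
        rw [show (((h : SL(2, ℤ)) 1 1 : ℤ) : ZMod q) = 0 from h0, mul_zero] at this
        exact zero_ne_one this
      set b : ZMod q := -(((h : SL(2, ℤ)) 0 1 : ℤ) : ZMod q) / (((h : SL(2, ℤ)) 1 1 : ℤ) : ZMod q)
      obtain ⟨s, hs⟩ : (q : ℤ) ∣ (h : SL(2, ℤ)) 0 1 + (b.val : ℤ) * (h : SL(2, ℤ)) 1 1 := by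
        rw [← ZMod.intCast_zmod_eq_zero_iff_dvd]
        push_cast
        rw [ZMod.natCast_zmod_val, div_mul_cancel₀ _ h11]
        simp
      refine ⟨⟨b.val, ZMod.val_lt b⟩, ⟨Raise.mkSL
        ((h : SL(2, ℤ)) 0 0 + (b.val : ℤ) * (h : SL(2, ℤ)) 1 0) s
        ((q : ℤ) * (h : SL(2, ℤ)) 1 0) ((h : SL(2, ℤ)) 1 1) (by
          linear_combination hd + (h : SL(2, ℤ)) 1 0 * hs), mem_gamma0_iff_dvd.mpr (by
          simp only [Raise.mkSL_10, hc, Nat.cast_mul]
          exact ⟨c, by ring⟩)⟩, ?_⟩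
      rw [hadj]
      ext i j
      fin_cases i <;> fin_cases j <;>
        simp [zMat, Matrix.mul_apply, Fin.sum_univ_two] <;>
        (try rw [← ZMod.natCast_val] at *) <;> linarith)
    v w
  rw [uH, this]
  simp

/-- `U_q` becomes the upper degeneracy map. -/
theorem dualPhi_uH {q M : ℕ} (hq : q.Prime) (hqM : q ∣ M) (L : GHom (Gamma0 M) ℤ →+ V) :
    dualPhi (L.comp (uH hq hqM dvd_rfl (dvd_mul_left q M))) =
      degH q hq.pos dvd_rfl (dualPhi L) := by
  refine AddMonoidHom.ext fun t => ?_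
  obtain ⟨γ, rfl⟩ := Additive.ofMul.surjective t
  obtain ⟨i, g, hg⟩ := (Raised.isFam_deg (L := M) hq.pos dvd_rfl).step γ ()
  cases i
  rw [degH_apply_of_eq hq.pos dvd_rfl _ hg, dualPhi_apply, dualPhi_apply, symb,
    AddMonoidHom.comp_apply, uH_crossHom, ← symb_mulVec L (by simp [hq.ne_zero]) eQv_ne_zero
      (moved_ne_zero _)]
  have hD : (qMat (!![(q : ℤ), 0; 0, 1] : ZMat)).det ≠ 0 := by
    rw [det_qMat]; simp [hq.ne_zero]
  have hDe : qdet ((qMat (!![(q : ℤ), 0; 0, 1] : ZMat)).mulVec eQv) eQv = 0 := by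
    simp [qdet, eQv, qMat]
  refine symb_congr L (mulVec_ne_zero hD eQv_ne_zero) (mulVec_ne_zero hD (moved_ne_zero _))
    eQv_ne_zero (moved_ne_zero _) hDe ?_
  have e1 := congrArg qMat hg
  rw [qMat_mul, qMat_mul] at e1
  simp only [Matrix.mulVec_mulVec]
  rw [show qMat (!![(q : ℤ), 0; 0, 1] : ZMat) * qMat (zMat γ) =
      qMat (zMat g) * qMat (!![(q : ℤ), 0; 0, 1] : ZMat) from e1,
    ← Matrix.mulVec_mulVec, qdet_mulVec, hDe, mul_zero]

/-- An eigen functional with vanishing class is zero off the Eisenstein eigensystems. -/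
theorem eq_zero_of_dualPhi [NeZero N] {R : Type} [CommRing R] [Module R V]
    (h8 : ∀ v : V, (8 : ℤ) • v = 0 → v = 0) {m : ℕ} (hgB : GoodIndex N m)
    (hB1 : (N : ℤ) ∣ (m : ℤ) - 1) {b : R}
    (hneB : ∀ v : V, (b - ((m : R) + 1)) • v = 0 → v = 0) {L : GHom (Gamma0 N) ℤ →+ V}
    (heig : ∀ x, L (transferHom hgB x) = b • L x) (hφ : dualPhi L = 0) : L = 0 := by
  classical
  have hu : ∀ γ ∈ Gamma0 N, ∀ v : Fin 2 → ℚ, v ≠ 0 →
      symb L eQv ((qMat (γ : SL(2, ℤ))).mulVec v) = symb L eQv v := fun γ hγ v hv => by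
    have h0 : symb L eQv ((qMat (γ : ZMat)).mulVec eQv) = 0 :=
      (dualPhi_apply L ⟨γ, hγ⟩).symm.trans (DFunLike.congr_fun hφ _)
    rw [symb_trans L eQv_ne_zero (moved_ne_zero γ) (mulVec_ne_zero (qMat_det_ne γ) hv), h0,
      zero_add]
    exact symb_gamma L hγ eQv_ne_zero hv
  have hT : ∀ {v w : Fin 2 → ℚ}, v ≠ 0 → w ≠ 0 →
      ∑ i, symb L ((qMat (heckeRep m i)).mulVec v) ((qMat (heckeRep m i)).mulVec w) =
        b • symb L v w := fun {v w} hv hw => by
    rw [← symb_comp_transfer hgB L hv hw]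
    exact heig _
  have hzero : ∀ v : Fin 2 → ℚ, v ≠ 0 → symb L eQv v = 0 := by
    intro v hv
    obtain ⟨α, hα⟩ : ∃ α : SL(2, ℤ), qdet v (castVec ((α : ZMat).mulVec ![1, 0])) = 0 := by
      set s := clr v
      obtain ⟨a', ha'⟩ : (Int.gcd (s 0) (s 1) : ℤ) ∣ s 0 := Int.gcd_dvd_left _ _
      obtain ⟨c', hc'⟩ : (Int.gcd (s 0) (s 1) : ℤ) ∣ s 1 := Int.gcd_dvd_right _ _
      have hgne : (Int.gcd (s 0) (s 1) : ℤ) ≠ 0 := fun h0 => clr_ne_zero hv (funext fun i => by
        fin_cases i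
        · simpa [h0] using ha'
        · simpa [h0] using hc')
      have hcop : IsCoprime a' c' := by
        refine ⟨Int.gcdA (s 0) (s 1), Int.gcdB (s 0) (s 1), mul_left_cancel₀ hgne ?_⟩
        linear_combination -Int.gcd_eq_gcd_ab (s 0) (s 1) - Int.gcdA (s 0) (s 1) * ha' -
          Int.gcdB (s 0) (s 1) * hc'
      obtain ⟨α, ea, ec⟩ := exists_sl_col hcop
      refine ⟨α, ?_⟩
      have h1 := qdet_clr v
      simp [qdet, castVec, ea, ec, s] at h1 ha' hc' ⊢
      have hg' : ((Int.gcd (clr v 0) (clr v 1) : ℕ) : ℚ) ≠ 0 := by exact_mod_cast hgne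
      generalize Int.gcd (clr v 0) (clr v 1) = G at ha' hc' hg'
      rw [ha', hc'] at h1
      push_cast at h1
      refine (mul_eq_zero.mp (?_ : (G : ℚ) *
        (v 0 * (c' : ℚ) - v 1 * (a' : ℚ)) = 0)).resolve_left hg'
      linear_combination -h1
    set r : ZVec := (α : ZMat).mulVec ![1, 0]
    have hr : r ≠ 0 := fun h0 => by
      have := congrArg (((α⁻¹ : SL(2, ℤ))) : ZMat).mulVec h0
      rw [Matrix.mulVec_mulVec, ← Matrix.SpecialLinearGroup.coe_mul, inv_mul_cancel,
        Matrix.SpecialLinearGroup.coe_one, Matrix.one_mulVec, Matrix.mulVec_zero] at this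
      simp at this
    rw [symb_congr L eQv_ne_zero hv eQv_ne_zero (castVec_ne_zero hr) (by simp [qdet]) hα]
    have hsum := hT eQv_ne_zero (castVec_ne_zero hr)
    have hterm : ∀ i, symb L ((qMat (heckeRep m i)).mulVec eQv)
        ((qMat (heckeRep m i)).mulVec (castVec r)) = symb L eQv (castVec r) := fun i => by
      obtain ⟨γ, hγ, hmove⟩ := exists_gamma_move hgB.prime hB1 α i
      rw [symb_congr L (mulVec_ne_zero (hdr hgB.prime i) eQv_ne_zero)
        (mulVec_ne_zero (hdr hgB.prime i) (castVec_ne_zero hr)) eQv_ne_zero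
        (mulVec_ne_zero (qMat_det_ne γ) (castVec_ne_zero hr)) (hre m i) ?_,
        hu γ hγ _ (castVec_ne_zero hr)]
      rw [← castVec_mulVec, ← castVec_mulVec]
      simp only [qdet, castVec]
      simp only [vdet] at hmove
      exact_mod_cast hmove
    rw [Finset.sum_congr rfl fun i _ => hterm i, Finset.sum_const, Finset.card_univ,
      Fintype.card_option, Fintype.card_fin, ← Nat.cast_smul_eq_nsmul R, Nat.cast_add,
      Nat.cast_one] at hsum
    exact hneB _ (by rw [sub_smul, ← hsum, sub_self])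
  haveI : (Gamma0 N).FiniteIndex :=
    IsCongruenceSubgroup.finiteIndex (Gamma0_is_congruence N)
  refine AddMonoidHom.ext fun x => h8 _ ?_
  rw [← map_zsmul]
  refine AddMonoidHom.mem_ker.mp ((AddSubgroup.closure_le _).mpr ?_ (eight_smul_mem _ x))
  rintro _ ⟨u, w, hu', hw', rfl⟩
  show L (crossHom (Gamma0 N) u w) = 0
  rw [← symb_eq L (castVec_ne_zero hu') (castVec_ne_zero hw') hu' hw' (by simp [qdet]; ring)
    (by simp [qdet]; ring), symb_trans L (castVec_ne_zero hu') eQv_ne_zero (castVec_ne_zero hw'),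
    symb_swap L eQv, hzero _ (castVec_ne_zero hu'), hzero _ (castVec_ne_zero hw')]
  simp

/-- The operator `L ↦ L ∘ T_m - b • L` on functionals. -/
def funOp {R : Type} [CommRing R] [Module R V] {m : ℕ} (hg : GoodIndex N m) (b : R)
    (L : GHom (Gamma0 N) ℤ →+ V) : GHom (Gamma0 N) ℤ →+ V :=
  L.comp (AddMonoidHom.mk' (transferHom (A := ℤ) hg) (GalRep.transferHom_add hg)) - b • L

theorem funOp_apply {R : Type} [CommRing R] [Module R V] {m : ℕ} (hg : GoodIndex N m) (b : R)
    (L : GHom (Gamma0 N) ℤ →+ V) (x : GHom (Gamma0 N) ℤ) :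
    funOp hg b L x = L (transferHom hg x) - b • L x := rfl

/-- A generalised eigen functional with vanishing class is zero off the Eisenstein eigensystems. -/
theorem eq_zero_of_dualPhi_nilpotent [NeZero N] {R : Type} [CommRing R] [Module R V]
    (h8 : ∀ v : V, (8 : ℤ) • v = 0 → v = 0) {m : ℕ} (hgB : GoodIndex N m)
    (hB1 : (N : ℤ) ∣ (m : ℤ) - 1) {b : R}
    (hneB : ∀ v : V, (b - ((m : R) + 1)) • v = 0 → v = 0) (j : ℕ) :
    ∀ L : GHom (Gamma0 N) ℤ →+ V, (funOp hgB b)^[j] L = 0 → dualPhi L = 0 → L = 0 := by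
  induction j with
  | zero => exact fun L h _ => h
  | succ j ih =>
    intro L h hφ
    rw [Function.iterate_succ_apply] at h
    have h1 : funOp hgB b L = 0 := by
      refine ih _ h ?_
      rw [funOp, dualPhi_sub, dualPhi_smul, dualPhi_transfer, hφ, smul_zero, sub_zero]
      refine AddMonoidHom.ext fun t => ?_
      obtain ⟨γ, rfl⟩ := Additive.ofMul.surjective t
      simp [transferHom_apply]
    refine eq_zero_of_dualPhi h8 hgB hB1 hneB (fun x => sub_eq_zero.mp ?_) hφ
    exact DFunLike.congr_fun h1 x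

end

section Cast

variable {O : Type} [CommRing O] [IsDomain O] [CharZero O]

/-- An integral class with values in `O`. -/
def castCls (O : Type) [CommRing O] (N : ℕ) : GHom (Gamma0 N) ℤ →+ GHom (Gamma0 N) O :=
  AddMonoidHom.compHom (Int.castAddHom O)

theorem castCls_apply {N : ℕ} (x : GHom (Gamma0 N) ℤ) :
    castCls O N x = (Int.castAddHom O).comp x := rfl

theorem castCls_transfer {N ℓ : ℕ} (hg : GoodIndex N ℓ) (x : GHom (Gamma0 N) ℤ) :
    castCls O N (transferHom hg x) = transferHom hg (castCls O N x) :=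
  (GalRep.transferHom_comp hg (Int.castAddHom O) x).symm

/-- A semilinear functional vanishing on the integral classes is zero. -/
theorem eq_zero_of_castCls {N : ℕ} [NeZero N] {V : Type} [AddCommGroup V] {R : Type} [CommRing R]
    [Module R V] (r : O →+* R) (F : GHom (Gamma0 N) O →+ V)
    (hF : ∀ (c : O) (x : GHom (Gamma0 N) O), F (c • x) = r c • F x)
    (h : ∀ x, F (castCls O N x) = 0) : F = 0 := by
  classical
  refine AddMonoidHom.ext fun v => ?_
  obtain ⟨s, hs⟩ := GalRep.exists_generators N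
  let S : Submodule ℤ O := Submodule.span ℤ ((fun g : Gamma0 N => v (Additive.ofMul g)) '' (s : Set _))
  have hS : ∀ γ : Gamma0 N, v (Additive.ofMul γ) ∈ S := by
    intro γ
    have hγ : γ ∈ Subgroup.closure (s : Set (Gamma0 N)) := hs ▸ Subgroup.mem_top γ
    induction hγ using Subgroup.closure_induction with
    | mem g hg => exact Submodule.subset_span ⟨g, hg, rfl⟩
    | one => rw [ofMul_one, map_zero]; exact S.zero_mem
    | mul a b _ _ ha hb => rw [ofMul_mul, map_add]; exact S.add_mem ha hb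
    | inv a _ ha => rw [ofMul_inv, map_neg]; exact S.neg_mem ha
  haveI : Module.Finite ℤ S := Module.Finite.span_of_finite ℤ ((s.finite_toSet).image _)
  haveI : Module.Free ℤ S := Module.free_of_finite_type_torsion_free'
  let bS := Module.Free.chooseBasis ℤ S
  let φ : Module.Free.ChooseBasisIndex ℤ S → GHom (Gamma0 N) ℤ := fun i =>
    AddMonoidHom.mk' (fun x => bS.coord i ⟨v x, by
      obtain ⟨γ, rfl⟩ := Additive.ofMul.surjective x; exact hS γ⟩) fun x y => by
        rw [← map_add]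
        congr 1
        exact Subtype.ext (map_add v x y)
  have hv : v = ∑ i, ((bS i : S) : O) • castCls O N (φ i) := by
    refine AddMonoidHom.ext fun x => ?_
    obtain ⟨γ, rfl⟩ := Additive.ofMul.surjective x
    rw [AddMonoidHom.finsetSum_apply]
    have := congrArg Subtype.val (bS.sum_repr ⟨v (Additive.ofMul γ), hS γ⟩)
    rw [AddSubmonoidClass.coe_finsetSum] at this
    refine this.symm.trans (Finset.sum_congr rfl fun i _ => ?_)
    show bS.repr _ i • ((bS i : S) : O) = ((bS i : S) : O) * ((bS.repr _ i : ℤ) : O)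
    rw [zsmul_eq_mul, mul_comm]
  rw [hv, map_sum, AddMonoidHom.zero_apply]
  exact Finset.sum_eq_zero fun i _ => by rw [hF, h, smul_zero]

end Cast

end Fermat.Agent.R59.Raise
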