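import Fermat.Agent.R59.Raise.VanishK
import Fermat.Agent.Raise.Kernel

/-!
S59, unit C2: Ihara's lemma with eigenvalues in a ring of scalars (`Raise/Kernel` with `ℤ` replaced
by `R`).
-/

set_option autoImplicit false
set_option linter.unusedSectionVars false

noncomputable section

namespace Fermat.Agent.R59.Raise

open CongruenceSubgroup Fermat.Agent.Raise
open Fermat.Agent.GalRep (GoodIndex ParHom transferHom transferHom_apply trCoef)
open scoped MatrixGroups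

theorem kernel_eq_zero_scalar {q N : ℕ} [Fact q.Prime] [NeZero N] {A : Type} [AddCommGroup A]
    {R : Type} [CommRing R] [Module R A]
    (hqN : ¬ q ∣ N) {ℓ : ℕ} (hg : GoodIndex N ℓ) (hℓq : ℓ ≠ q)
    (hℓbad : ¬ (ℓ : ℤ) ∣ (q : ℤ) ^ (4 * N ^ 2) - 1) {a : R}
    (hne : ∀ v : A, (a ^ 2 - ((ℓ : R) + 1) ^ 2) • v = 0 → v = 0)
    {m : ℕ} (hgB : GoodIndex N m) (hB1 : (N : ℤ) ∣ (m : ℤ) - 1) {b : R}
    (hneB : ∀ v : A, (b - ((m : R) + 1)) • v = 0 → v = 0)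
    {x y : Additive (Gamma0 N) →+ A} (hx : x ∈ ParHom N A) (hy : y ∈ ParHom N A)
    (heig : transferHom hg x = a • x) (heigB : transferHom hgB x = b • x)
    (hrel : ∀ γ γ' : Gamma0 N, toQ (γ' : SL(2, ℤ)) = dConj (qU q) (toQ (γ : SL(2, ℤ))) →
      x (Additive.ofMul γ) + y (Additive.ofMul γ') = 0) :
    x = 0 ∧ y = 0 := by
  classical
  have hq' := (Fact.out : q.Prime)
  have hq0 : (q : ℚ) ≠ 0 := Nat.cast_ne_zero.mpr hq'.ne_zero
  have hqZ : IsCoprime (q : ℤ) (N : ℤ) :=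
    Nat.isCoprime_iff_coprime.mpr (hq'.coprime_iff_not_dvd.mpr hqN)
  have hEd : ∀ γ γ' : SL(2, ℤ), toQ γ' = dConj (qU q) (toQ γ) → eQ q γ' = toQ γ := fun γ γ' h => by
    rw [eQ, h]
    refine ext_two ?_ ?_ ?_ ?_ <;> simp [hq0]
  -- two elements and the relation between them
  obtain ⟨u, v, huv⟩ := hqZ.pow_left (m := 2)
  set g₀ : SL(2, ℤ) := mkSL (u * q) (-v) (N : ℤ) (q : ℤ) (by linear_combination huv) with hg₀def
  set g₂ : SL(2, ℤ) := mkSL u (-v) (N : ℤ) ((q : ℤ) ^ 2) (by linear_combination huv) with hg₂def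
  have hg₀ : g₀ ∈ Gamma0 N := mem_gamma0_iff_dvd.mpr (by simp [hg₀def])
  have hg₂ : g₂ ∈ Gamma0 N := mem_gamma0_iff_dvd.mpr (by simp [hg₂def])
  have hr : toQ g₀ = hQ (qU q ^ (-1 : ℤ)) * eQ q g₂ := by
    refine ext_two ?_ ?_ ?_ ?_ <;>
      simp [eQ, mul_apply_two, toQ_apply, hg₀def, hg₂def, Units.val_inv_eq_inv_val]
    all_goals (try field_simp)
  set η := -(valAt x g₀ + valAt y g₂) with hη
  -- every element of `Γ₀(N)` in the second decomposition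
  have hsecond : ∀ γ ∈ Gamma0 N, ∃ (k : ℤ) (s : ℚ) (γ₃ : SL(2, ℤ)), γ₃ ∈ Gamma0 N ∧
      toQ γ = xQ s * hQ (qU q ^ k) * eQ q γ₃ ∧ valAt x γ = k • η - valAt y γ₃ := by
    have hdiv : ∀ γ ∈ Gamma0 N, (q : ℤ) ∣ γ 1 0 →
        ∃ γ' ∈ Gamma0 N, eQ q γ' = toQ γ ∧ valAt x γ = -valAt y γ' := by
      intro γ hγ hc
      obtain ⟨t, ht⟩ := mem_gamma0_iff_dvd.mp hγ
      obtain ⟨t', rfl⟩ : (q : ℤ) ∣ t := hqZ.dvd_of_dvd_mul_left (ht ▸ hc)
      set γ' : SL(2, ℤ) := mkSL (γ 0 0) ((q : ℤ) * γ 0 1) ((N : ℤ) * t') (γ 1 1) (by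
        have := γ.2
        rw [Matrix.det_fin_two, ht] at this
        linear_combination this) with hγ'def
      have hγ' : γ' ∈ Gamma0 N := mem_gamma0_iff_dvd.mpr (by simp [hγ'def])
      have e : toQ γ' = dConj (qU q) (toQ γ) := by
        refine ext_two ?_ ?_ ?_ ?_ <;> simp [toQ_apply, hγ'def, ht]
        field_simp
      refine ⟨γ', hγ', hEd γ γ' e, ?_⟩
      rw [valAt_of_mem x hγ, valAt_of_mem y hγ']
      exact eq_neg_of_add_eq_zero_left (hrel ⟨γ, hγ⟩ ⟨γ', hγ'⟩ e)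
    intro γ hγ
    by_cases hc : (q : ℤ) ∣ γ 1 0
    · obtain ⟨γ', hγ', e, hv⟩ := hdiv γ hγ hc
      exact ⟨0, 0, γ', hγ', by simp [xQ_zero, hQ_one, e], by simp [hv]⟩
    have hN0 : (N : ZMod q) ≠ 0 := fun h => hqN ((ZMod.natCast_eq_zero_iff _ _).mp h)
    have hc0 : (γ 1 0 : ZMod q) ≠ 0 := fun h => hc ((ZMod.intCast_zmod_eq_zero_iff_dvd _ _).mp h)
    set n : ℤ := (((((N : ℤ) * γ 0 0 - u * q * γ 1 0 : ℤ) : ZMod q) / ((N : ZMod q) * γ 1 0)).val : ℤ)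
    set δ := g₀⁻¹ * (ModularGroup.T ^ (-n) * γ) with hδdef
    have hδ : δ ∈ Gamma0 N := mul_mem (inv_mem hg₀) (mul_mem (T_zpow_mem _) hγ)
    have hδc : (q : ℤ) ∣ δ 1 0 := by
      rw [← ZMod.intCast_zmod_eq_zero_iff_dvd]
      simp only [hδdef, Matrix.SpecialLinearGroup.coe_mul, Matrix.mul_apply, Fin.sum_univ_two]
      simp [hg₀def, Matrix.adjugate_fin_two, ModularGroup.coe_T_zpow, n]
      field_simp
      simp
    obtain ⟨δ', hδ', e, hv⟩ := hdiv δ hδ hδc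
    have hγeq : γ = ModularGroup.T ^ n * g₀ * δ := by
      rw [hδdef, ← mul_assoc, ← mul_assoc, mul_inv_cancel_right, ← zpow_add, add_neg_cancel,
        zpow_zero, one_mul]
    refine ⟨-1, n, g₂ * δ', mul_mem hg₂ hδ', ?_, ?_⟩
    · rw [hγeq, map_mul, map_mul, toQ_T_zpow, hr, eQ_mul, e]
      group
    · rw [hγeq, valAt_mul x (mul_mem (T_zpow_mem _) hg₀) hδ, valAt_mul x (T_zpow_mem _) hg₀,
        valAt_T_zpow hx, valAt_mul y hg₂ hδ', hv, hη]
      simp only [neg_smul, one_smul, neg_neg]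
      abel
  -- the glued function
  have hdec : ∀ g ∈ gLev q N, ∃ (k : ℤ) (s : ℚ) (γ : SL(2, ℤ)), s ∈ qInt q ∧ γ ∈ Gamma0 N ∧
      g = xQ s * hQ (qU q ^ k) * toQ γ := fun g hgm => exists_iwasawa hqN hgm
  choose! k₀ s₀ γ₀ hs₀ hγ₀ he₀ using hdec
  set φ : SLQ → A := fun g => valAt x (γ₀ g) + k₀ g • η with hφdef
  have hBmem : ∀ (k : ℤ) {s : ℚ}, s ∈ qInt q → xQ s * hQ (qU q ^ k) ∈ gLev q N := fun k s hs =>
    mul_mem (xQ_mem hs) (hQ_mem k)
  have hval : ∀ (k : ℤ) {s : ℚ} {γ : SL(2, ℤ)}, γ ∈ Gamma0 N →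
      xQ s * hQ (qU q ^ k) * toQ γ ∈ gLev q N →
      φ (xQ s * hQ (qU q ^ k) * toQ γ) = valAt x γ + k • η := by
    intro k s γ hγ hm
    obtain ⟨hk, n, hn⟩ := iwasawa_unique (he₀ _ hm).symm
    rw [hφdef]
    simp only [hk]
    refine congrArg (· + k • η) ?_
    refine Eq.trans ?_ (congrArg (valAt x) hn).symm
    rw [valAt_mul x (T_zpow_mem _) (hγ₀ _ hm), valAt_T_zpow hx, zero_add]
  have hΓ : ∀ γ ∈ Gamma0 N, φ (toQ γ) = valAt x γ := fun γ hγ => by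
    have := hval 0 (s := 0) hγ
    simp only [xQ_zero, zpow_zero, hQ_one, one_mul, zero_smul, add_zero] at this
    exact this (toQ_mem hγ)
  have hBB : ∀ (k k' : ℤ) (s s' : ℚ), xQ s * hQ (qU q ^ k) * (xQ s' * hQ (qU q ^ k')) =
      xQ (s + s' / ((q : ℚ) ^ k) ^ 2) * hQ (qU q ^ (k + k')) := fun k k' s s' => by
    rw [mul_assoc, ← mul_assoc (hQ _) (xQ s'), hQ_xQ, qU_zpow, mul_assoc (xQ _) (hQ _), hQ_mul,
      ← mul_assoc, xQ_mul, ← zpow_add]
  have hleft : ∀ (k : ℤ) {s : ℚ}, s ∈ qInt q → ∀ g ∈ gLev q N,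
      φ (xQ s * hQ (qU q ^ k) * g) = k • η + φ g := by
    intro k s hs g hgm
    conv_lhs => rw [he₀ g hgm, ← mul_assoc, hBB]
    rw [hval _ (hγ₀ g hgm) (by
      rw [← hBB, mul_assoc (xQ s * _), ← he₀ g hgm]; exact mul_mem (hBmem k hs) hgm), hφdef]
    simp only [add_smul]
    abel
  -- the values on the conjugate of `Γ₀(N)`
  have hE : ∀ γ ∈ Gamma0 N, φ (eQ q γ) = -valAt y γ := by
    intro γ hγ
    have hm := eQ_mem (q := q) hγ
    obtain ⟨k₂, s₂, γ₃, hγ₃, e₂, hv⟩ := hsecond _ (hγ₀ _ hm)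
    set K := k₀ (eQ q γ) + k₂
    set S := s₀ (eQ q γ) + s₂ / ((q : ℚ) ^ k₀ (eQ q γ)) ^ 2
    have e : eQ q γ = xQ S * hQ (qU q ^ K) * eQ q γ₃ := by
      rw [← hBB, mul_assoc _ (xQ s₂ * _), ← e₂, ← he₀ _ hm]
    have e' : toQ (γ * γ₃⁻¹) = xQ (S * q) * hQ (qU q ^ K) * toQ 1 := by
      have h1 : eQ q (γ * γ₃⁻¹) = xQ S * hQ (qU q ^ K) := by
        have h := eQ_mul (q := q) (γ * γ₃⁻¹) γ₃
        rw [inv_mul_cancel_right, e] at h
        exact (mul_right_cancel h).symm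
      have hdd : ∀ g, dConj (qU q) (dConj (qU q)⁻¹ g) = g := fun g => by
        refine ext_two ?_ ?_ ?_ ?_ <;> simp [hq0, Units.val_inv_eq_inv_val]
      have h2 : dConj (qU q) (eQ q (γ * γ₃⁻¹)) = toQ (γ * γ₃⁻¹) := hdd _
      rw [← h2, h1, map_one, mul_one]
      refine ext_two ?_ ?_ ?_ ?_ <;> simp [mul_apply_two, qU_zpow]
      field_simp
      simp
    obtain ⟨hK, n, hn⟩ := iwasawa_unique (q := q) (k := 0) (s := 0) (γ := γ * γ₃⁻¹)
      (k' := K) (s' := S * q) (γ' := 1) (by rw [← e']; simp [xQ_zero, hQ_one])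
    have hγeq : valAt y γ = valAt y γ₃ := by
      have h1 : γ = ModularGroup.T ^ (-n) * γ₃ := by
        rw [eq_comm, ← inv_eq_iff_mul_eq_one, eq_comm] at hn
        rw [zpow_neg, ← hn, inv_mul_cancel_right]
      rw [h1, valAt_mul y (T_zpow_mem _) hγ₃, valAt_T_zpow hy, zero_add]
    rw [hφdef]
    simp only
    rw [hv, hγeq, sub_add_eq_add_sub, ← add_smul, add_comm k₂,
      show k₀ (eQ q γ) + k₂ = 0 from hK.symm, zero_smul, zero_sub]
  let H : Subgroup SLQ :=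
    { carrier := {e | e ∈ gLev q N ∧ ∀ g ∈ gLev q N, φ (g * e) = φ g + φ e}
      one_mem' := ⟨one_mem _, fun g _ => by
        have := hΓ 1 (one_mem _)
        rw [map_one] at this
        rw [mul_one, this, valAt_of_mem x (one_mem _)]
        exact (add_eq_left.mpr (map_zero x)).symm⟩
      mul_mem' := fun {e f} he hf => ⟨mul_mem he.1 hf.1, fun g hgm => by
        rw [← mul_assoc, hf.2 _ (mul_mem hgm he.1), he.2 _ hgm, hf.2 _ he.1, add_assoc]⟩
      inv_mem' := fun {e} he => ⟨inv_mem he.1, fun g hgm => by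
        have h1 := he.2 (g * e⁻¹) (mul_mem hgm (inv_mem he.1))
        have h2 := he.2 e⁻¹ (inv_mem he.1)
        have h3 := hΓ 1 (one_mem _)
        rw [inv_mul_cancel_right] at h1
        rw [inv_mul_cancel, ← map_one toQ, h3, valAt_of_mem x (one_mem _)] at h2
        rw [h1, eq_neg_of_add_eq_zero_left (h2.symm.trans (map_zero x))]
        abel⟩ }
  have hHΓ : ∀ γ ∈ Gamma0 N, toQ γ ∈ H := fun γ hγ => ⟨toQ_mem hγ, fun g hgm => by
    conv_lhs => rw [he₀ g hgm, mul_assoc, ← map_mul]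
    rw [hleft _ (hs₀ g hgm) _ (toQ_mem (mul_mem (hγ₀ g hgm) hγ)), hΓ _ (mul_mem (hγ₀ g hgm) hγ),
      valAt_mul x (hγ₀ g hgm) hγ, hΓ γ hγ, hφdef]
    simp only
    abel⟩
  have hHE : ∀ γ ∈ Gamma0 N, eQ q γ ∈ H := fun γ hγ => ⟨eQ_mem hγ, fun g hgm => by
    obtain ⟨k₂, s₂, γ₃, hγ₃, e₂, hv⟩ := hsecond _ (hγ₀ g hgm)
    have hm₂ : xQ s₂ * hQ (qU q ^ k₂) ∈ gLev q N := by
      have := mul_mem (toQ_mem (q := q) (hγ₀ g hgm)) (inv_mem (eQ_mem (q := q) hγ₃))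
      rwa [e₂, mul_inv_cancel_right] at this
    conv_lhs => rw [he₀ g hgm, e₂, mul_assoc, mul_assoc _ (eQ q γ₃), ← eQ_mul]
    have hs₂ : s₂ ∈ qInt q := by
      have h := hm₂.1 0 1
      simp [mul_apply_two, qU_zpow] at h
      have := mul_mem h (zpow_mem_qInt hq'.ne_zero (-k₂))
      rwa [mul_assoc, ← zpow_add₀ hq0, add_neg_cancel, zpow_zero, mul_one] at this
    rw [hleft _ (hs₀ g hgm) _ (mul_mem hm₂ (eQ_mem (mul_mem hγ₃ hγ))),
      hleft _ hs₂ _ (eQ_mem (mul_mem hγ₃ hγ)), hE _ (mul_mem hγ₃ hγ), hE γ hγ,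
      valAt_mul y hγ₃ hγ, hφdef]
    simp only
    rw [hv]
    abel⟩
  have hHh : hQ (qU q ^ (-1 : ℤ)) ∈ H := by
    have := H.mul_mem (hHΓ g₀ hg₀) (H.inv_mem (hHE g₂ hg₂))
    rwa [hr, mul_inv_cancel_right] at this
  have hHx : ∀ {t : ℚ}, t ∈ qInt q → xQ t ∈ H := by
    intro t ⟨m, z, hz⟩
    have h1 : ∀ (j : ℕ) (z : ℤ), xQ ((z : ℚ) / (q : ℚ) ^ (2 * j + 1)) ∈ H := by
      intro j
      induction j with
      | zero =>
        intro z
        have := hHE (ModularGroup.T ^ z) (T_zpow_mem z)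
        rw [eQ, toQ_T_zpow] at this
        convert this using 1
        refine ext_two ?_ ?_ ?_ ?_ <;> simp [Units.val_inv_eq_inv_val]
        ring
      | succ j ih =>
        intro z
        have := H.mul_mem (H.mul_mem (H.inv_mem hHh) (ih z)) hHh
        convert this using 1
        rw [hQ_inv, hQ_xQ, mul_assoc, hQ_mul, inv_mul_cancel, hQ_one, mul_one]
        congr 1
        rw [Units.val_inv_eq_inv_val, qU_zpow]
        field_simp
        ring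
    have h2 := h1 m (z * (q : ℤ) ^ (m + 1))
    convert h2 using 2
    push_cast
    rw [← hz]
    field_simp
    ring
  have hall : ∀ e ∈ gLev q N, e ∈ H := fun e he => by
    rw [he₀ e he]
    refine H.mul_mem (H.mul_mem (hHx (hs₀ e he)) ?_) (hHΓ _ (hγ₀ e he))
    have hh : hQ (qU q ^ k₀ e) = hQ (qU q ^ (-1 : ℤ)) ^ (-k₀ e) := by
      let L : ℚˣ →* SLQ := MonoidHom.mk' hQ fun a b => (hQ_mul a b).symm
      show L _ = L _ ^ _
      rw [← map_zpow, ← zpow_mul, neg_one_mul, neg_neg]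
    rw [hh]
    exact H.zpow_mem hHh _
  have hadd : IsLevHom q N φ := fun g hgm e he => (hall e he).2 g hgm
  have hzero := levHom_eq_zero_scalar hqN hadd
    (fun γ hγ htr => by rw [hΓ γ hγ]; exact valAt_trace hx hγ htr) hg hℓq hℓbad (a := a)
    (fun γ => by
      have := DFunLike.congr_fun heig (Additive.ofMul γ)
      rw [transferHom_apply, AddMonoidHom.smul_apply] at this
      rw [hΓ _ γ.2, valAt_of_mem x γ.2, ← this]
      exact Finset.sum_congr rfl fun i _ => by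
        rw [hΓ _ (trCoef hg γ i).2, valAt_of_mem x (trCoef hg γ i).2]) hne hgB hB1 (b := b)
    (fun γ => by
      have := DFunLike.congr_fun heigB (Additive.ofMul γ)
      rw [transferHom_apply, AddMonoidHom.smul_apply] at this
      rw [hΓ _ γ.2, valAt_of_mem x γ.2, ← this]
      exact Finset.sum_congr rfl fun i _ => by
        rw [hΓ _ (trCoef hgB γ i).2, valAt_of_mem x (trCoef hgB γ i).2]) hneB
  have hx0 : x = 0 := AddMonoidHom.ext fun z => by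
    have := hzero _ (Additive.toMul z).2
    rwa [hΓ _ (Additive.toMul z).2, valAt_of_mem x (Additive.toMul z).2] at this
  refine ⟨hx0, AddMonoidHom.ext fun z => ?_⟩
  obtain ⟨γ, rfl⟩ := Additive.ofMul.surjective z
  -- elements with upper right entry divisible by `q`
  have hb : ∀ δ ∈ Gamma0 N, (q : ℤ) ∣ δ 0 1 → valAt y δ = 0 := by
    intro δ hδ ⟨b, hb⟩
    set δ' : SL(2, ℤ) := mkSL (δ 0 0) b (δ 1 0 * q) (δ 1 1) (by
      have := δ.2
      rw [Matrix.det_fin_two, hb] at this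
      linear_combination this) with hδ'def
    have hδ' : δ' ∈ Gamma0 N :=
      mem_gamma0_iff_dvd.mpr (by simpa [hδ'def] using (mem_gamma0_iff_dvd.mp hδ).mul_right _)
    have := hrel ⟨δ', hδ'⟩ ⟨δ, hδ⟩ (by
      refine ext_two ?_ ?_ ?_ ?_ <;> simp [toQ_apply, hδ'def, hb, hq0])
    rw [hx0, AddMonoidHom.zero_apply, zero_add] at this
    rwa [valAt_of_mem y hδ]
  have ha : ∀ δ ∈ Gamma0 N, ¬ (q : ℤ) ∣ δ 0 0 → valAt y δ = 0 := by
    intro δ hδ hd
    obtain ⟨u', v', huv'⟩ := (Nat.prime_iff_prime_int.mp hq').coprime_iff_not_dvd.mpr hd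
    have h1 := hb (δ * ModularGroup.T ^ (-(δ 0 1 * v'))) (mul_mem hδ (T_zpow_mem _)) ⟨δ 0 1 * u', by
      simp [Matrix.mul_apply, Fin.sum_univ_two, ModularGroup.coe_T_zpow]
      linear_combination -(δ 0 1) * huv'⟩
    rwa [valAt_mul y hδ (T_zpow_mem _), valAt_T_zpow hy, add_zero] at h1
  show y (Additive.ofMul γ) = 0
  rw [← valAt_of_mem y γ.2]
  by_cases hd : (q : ℤ) ∣ (γ : SL(2, ℤ)) 0 0
  · have hL : lZ (N : ℤ) ∈ Gamma0 N := lZ_mem dvd_rfl
    have h1 := ha ((γ : SL(2, ℤ)) * lZ N) (mul_mem γ.2 hL) fun h => by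
      simp [Matrix.mul_apply, Fin.sum_univ_two] at h
      rw [dvd_add_right hd] at h
      have hpr := Nat.prime_iff_prime_int.mp hq'
      have hdet := (γ : SL(2, ℤ)).2
      rw [Matrix.det_fin_two] at hdet
      exact (hpr.dvd_or_dvd h).elim (fun h => hpr.not_dvd_one
        (hdet ▸ dvd_sub (hd.mul_right _) (h.mul_right _))) fun h => hqN (by exact_mod_cast h)
    rwa [valAt_mul y γ.2 hL, valAt_trace hy hL (by simp [Matrix.trace_fin_two]), add_zero] at h1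
  · exact ha _ γ.2 hd

end Fermat.Agent.R59.Raise
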