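/-
S59, unit C2: the two degeneracy maps from level `L` to level `L q` have no common value on
parabolic classes off the Eisenstein eigensystems; restriction to `Γ₀(L q)` is injective.
-/
import Fermat.Agent.R59.Raise.KernelK
import Fermat.Agent.R59.Raised.Commute

set_option autoImplicit false
set_option linter.unusedSectionVars false
set_option linter.style.haveILetI false

noncomputable section

namespace Fermat.Agent.R59.Raise

open CongruenceSubgroup
open Fermat.Agent.Raise (GHom zMat zMat_mul IsFam toQ dConj qU toQ_apply mem_gamma0_iff_dvd lZ lZ_mem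
  QFree)
open Fermat.Agent.GalRep (GoodIndex transferHom ParHom)
open Fermat.Agent.R59.Raised (degH degH_apply_of_eq degH_one_apply gamma0_anti degH_transfer corH
  uH uEnd)
open scoped MatrixGroups

variable {A : Type} [AddCommGroup A] {R : Type} [CommRing R] [Module R A]

theorem trans_smul' {G G' : Subgroup SL(2, ℤ)} {ι : Type} [Fintype ι] {β : ι → Raise.ZMat}
    (h : IsFam G G' β) (r : R) (z : GHom G A) : h.trans (r • z) = r • h.trans z :=
  h.trans_comp_coeff (DistribMulAction.toAddMonoidHom A r) z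

theorem degH_smul {L L' d : ℕ} (hd : 0 < d) (h : L * d ∣ L') (r : R) (z : GHom (Gamma0 L) A) :
    degH d hd h (r • z) = r • degH d hd h z := trans_smul' _ r z

theorem transferHom_smul {L ℓ : ℕ} (hg : GoodIndex L ℓ) (r : R) (z : GHom (Gamma0 L) A) :
    transferHom hg (r • z) = r • transferHom hg z :=
  GalRep.transferHom_comp hg (DistribMulAction.toAddMonoidHom A r) z

theorem transferHom_sub {L ℓ : ℕ} (hg : GoodIndex L ℓ) (z w : GHom (Gamma0 L) A) :
    transferHom hg (z - w) = transferHom hg z - transferHom hg w :=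
  map_sub (AddMonoidHom.mk' (transferHom hg) (GalRep.transferHom_add hg)) z w

theorem transferHom_zero {L ℓ : ℕ} (hg : GoodIndex L ℓ) :
    transferHom hg (0 : GHom (Gamma0 L) A) = 0 :=
  map_zero (AddMonoidHom.mk' (transferHom hg) (GalRep.transferHom_add hg))

/-- `T_ℓ - a` on classes. -/
def opSub {L ℓ : ℕ} (hg : GoodIndex L ℓ) (a : R) (z : GHom (Gamma0 L) A) : GHom (Gamma0 L) A :=
  transferHom hg z - a • z

theorem opSub_mem {L ℓ : ℕ} (hg : GoodIndex L ℓ) (a : R) {z : GHom (Gamma0 L) A}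
    (hz : z ∈ ParHom L A) : opSub hg a z ∈ ParHom L A := fun γ hγ => by
  show transferHom hg z _ - a • z _ = 0
  rw [GalRep.transferHom_mem hg ⟨z, hz⟩ γ hγ, hz γ hγ, smul_zero, sub_zero]

/-- Restriction is injective on parabolic classes. -/
theorem degH_one_injective_sq {N q : ℕ} (D : Fermat.Agent.Raise.LevData N q)
    (h : N * q * 1 ∣ N * q * q) {x : GHom (Gamma0 (N * q)) A} (hx : x ∈ ParHom (N * q) A)
    (h0 : degH 1 one_pos h x = 0) : x = 0 := by
  refine AddMonoidHom.ext fun t => ?_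
  obtain ⟨γ, rfl⟩ := Additive.ofMul.surjective t
  obtain ⟨j, hj⟩ := Raised.lowElt_cov D γ
  have h1 := DFunLike.congr_fun h0 (Additive.ofMul ⟨_, hj⟩)
  rw [degH_one_apply] at h1
  have h2 : x (Additive.ofMul (Raised.lowElt N q j)) = 0 := hx _ (by
    simp [Raised.lowElt, Matrix.trace_fin_two, Fermat.Agent.Raise.lZ])
  rw [show (⟨_, gamma0_anti (dvd_mul_right (N * q) q) hj⟩ : Gamma0 (N * q)) =
    γ * (Raised.lowElt N q j)⁻¹ from rfl,
    ofMul_mul, ofMul_inv, map_add, map_neg, h2, neg_zero, add_zero] at h1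
  exact h1

/-- Restriction is injective on parabolic classes. -/
theorem degH_one_injective {L q : ℕ} [NeZero L] (hq : q.Prime) (hqL : ¬ q ∣ L)
    (h : L * 1 ∣ L * q) {x : GHom (Gamma0 L) A} (hx : x ∈ ParHom L A)
    (h0 : degH 1 one_pos h x = 0) : x = 0 := by
  haveI := Fact.mk hq
  have hker : ∀ g : Gamma0 L, ((g : SL(2, ℤ)) : SL(2, ℤ)) ∈ Gamma0 (L * q) →
      x (Additive.ofMul g) = 0 := fun g hg => by
    have := DFunLike.congr_fun h0 (Additive.ofMul ⟨_, hg⟩)
    rw [degH_one_apply] at this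
    exact this
  have hLq : ∀ z : ℤ, ((L * q : ℕ) : ℤ) ∣ (L : ℤ) * z ↔ (q : ℤ) ∣ z := fun z => by
    rw [Nat.cast_mul, mul_dvd_mul_iff_left (Int.natCast_ne_zero.mpr (NeZero.ne L))]
  refine AddMonoidHom.ext fun t => ?_
  obtain ⟨g, rfl⟩ := Additive.ofMul.surjective t
  obtain ⟨c, hc⟩ := mem_gamma0_iff_dvd.mp g.2
  by_cases hqc : (q : ℤ) ∣ c
  · exact hker g (mem_gamma0_iff_dvd.mpr (hc ▸ (hLq c).mpr hqc))
  have hc' : (L : ZMod q) * (c : ZMod q) ≠ 0 := mul_ne_zero
    (fun h => hqL ((ZMod.natCast_eq_zero_iff _ _).mp h))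
    (fun h => hqc ((ZMod.intCast_zmod_eq_zero_iff_dvd _ _).mp h))
  set b : ZMod q := ((((g : SL(2, ℤ)) 1 1 : ℤ) : ZMod q) - (c : ZMod q)) / ((L : ZMod q) * c)
  let T : Gamma0 L := ⟨ModularGroup.T ^ ((b.val : ℕ) : ℤ),
    mem_gamma0_iff_dvd.mpr (by simp [-zpow_natCast, ModularGroup.coe_T_zpow])⟩
  let U : Gamma0 L := ⟨lZ (L : ℤ), lZ_mem dvd_rfl⟩
  have hT : zMat T = !![1, ((b.val : ℕ) : ℤ); 0, 1] := ModularGroup.coe_T_zpow _
  have hU : zMat U = !![1, 0; (L : ℤ), 1] := rfl
  have hT0 : x (Additive.ofMul T) = 0 := hx T (by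
    show (zMat T).trace ^ 2 = 4
    rw [hT]; simp [Matrix.trace_fin_two])
  have hU0 : x (Additive.ofMul U) = 0 := hx U (by
    show (zMat U).trace ^ 2 = 4
    rw [hU]; simp [Matrix.trace_fin_two])
  have hmem : ((g * T⁻¹ * U⁻¹ : Gamma0 L) : SL(2, ℤ)) ∈ Gamma0 (L * q) := by
    refine mem_gamma0_iff_dvd.mpr ?_
    show (_ : ℤ) ∣ zMat (g * T⁻¹ * U⁻¹) 1 0
    rw [zMat_mul, zMat_mul,
      show zMat T⁻¹ = (zMat T).adjugate from Matrix.SpecialLinearGroup.coe_inv _, hT,
      show zMat U⁻¹ = (zMat U).adjugate from Matrix.SpecialLinearGroup.coe_inv _, hU]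
    simp only [Matrix.adjugate_fin_two, Matrix.mul_apply, Fin.sum_univ_two]
    have hg10 : zMat g 1 0 = (L : ℤ) * c := hc
    simp [hg10]
    have hdvd : (q : ℤ) ∣ c + ((b.val : ℕ) : ℤ) * ((L : ℤ) * c) - (g : SL(2, ℤ)) 1 1 := by
      rw [← ZMod.intCast_zmod_eq_zero_iff_dvd]
      push_cast
      rw [ZMod.natCast_zmod_val, div_mul_cancel₀ _ hc']
      ring
    have := (hLq _).mpr hdvd
    rw [Nat.cast_mul] at this
    refine this.trans (dvd_of_eq ?_)
    rw [← ZMod.natCast_val b]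
    simp only [zMat]
    ring
  have := hker _ hmem
  rw [ofMul_mul, ofMul_mul, ofMul_inv, ofMul_inv, map_add, map_add, map_neg, map_neg, hT0, hU0,
    neg_zero, add_zero, add_zero] at this
  exact this

/-- Pairs with a generalised eigen first component vanish. -/
theorem pair_eq_zero {L q : ℕ} [NeZero L] (hq : q.Prime) (hqL : ¬ q ∣ L)
    {ℓ : ℕ} (hg : GoodIndex L ℓ) (hg' : GoodIndex (L * q) ℓ)
    (hℓbad : ¬ (ℓ : ℤ) ∣ (q : ℤ) ^ (4 * L ^ 2) - 1) {a : R}
    (hne : ∀ v : A, (a ^ 2 - ((ℓ : R) + 1) ^ 2) • v = 0 → v = 0)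
    {m : ℕ} (hgB : GoodIndex L m) (hgB' : GoodIndex (L * q) m) (hB1 : (L : ℤ) ∣ (m : ℤ) - 1)
    {b : R} (hneB : ∀ v : A, (b - ((m : R) + 1)) • v = 0 → v = 0)
    (h₁ : L * 1 ∣ L * q) (h₂ : L * q ∣ L * q) (k j : ℕ) :
    ∀ (x z : GHom (Gamma0 L) A), x ∈ ParHom L A → z ∈ ParHom L A →
      degH 1 one_pos h₁ x + degH q hq.pos h₂ z = 0 →
      (opSub hg a)^[k] x = 0 → (opSub hgB b)^[j] x = 0 → x = 0 ∧ z = 0 := by
  haveI := Fact.mk hq
  have hℓq : ℓ ≠ q := fun h => hg'.not_dvd (h ▸ dvd_mul_left q L)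
  have hkey : ∀ (x z : GHom (Gamma0 L) A), x ∈ ParHom L A → z ∈ ParHom L A →
      degH 1 one_pos h₁ x + degH q hq.pos h₂ z = 0 →
      transferHom hg x = a • x → transferHom hgB x = b • x → x = 0 ∧ z = 0 := by
    intro x z hx hz hrel he heB
    refine kernel_eq_zero_scalar hqL hg hℓq hℓbad hne hgB hB1 hneB hx hz he heB fun γ γ' h => ?_
    have e : ∀ i k, toQ (γ' : SL(2, ℤ)) i k = dConj (qU q) (toQ (γ : SL(2, ℤ))) i k := fun i k => by
      rw [h]
    have hq0 : (q : ℚ) ≠ 0 := Nat.cast_ne_zero.mpr hq.ne_zero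
    have e00 : (γ' : SL(2, ℤ)) 0 0 = (γ : SL(2, ℤ)) 0 0 := by
      have := e 0 0; simp [toQ_apply] at this; exact_mod_cast this
    have e11 : (γ' : SL(2, ℤ)) 1 1 = (γ : SL(2, ℤ)) 1 1 := by
      have := e 1 1; simp [toQ_apply] at this; exact_mod_cast this
    have e01 : (γ' : SL(2, ℤ)) 0 1 = (q : ℤ) * (γ : SL(2, ℤ)) 0 1 := by
      have := e 0 1; simp [toQ_apply] at this; exact_mod_cast this
    have e10 : (q : ℤ) * (γ' : SL(2, ℤ)) 1 0 = (γ : SL(2, ℤ)) 1 0 := by
      have := e 1 0; simp [toQ_apply] at this; field_simp at this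
      exact_mod_cast (mul_comm _ _).trans this
    obtain ⟨c, hc⟩ := mem_gamma0_iff_dvd.mp γ'.2
    have hmem : (γ : SL(2, ℤ)) ∈ Gamma0 (L * q) := mem_gamma0_iff_dvd.mpr
      ⟨c, by rw [← e10, hc, Nat.cast_mul]; ring⟩
    have := DFunLike.congr_fun hrel (Additive.ofMul ⟨_, hmem⟩)
    rw [AddMonoidHom.add_apply, degH_one_apply, degH_apply_of_eq hq.pos h₂ z (g := γ') (by
      ext i k
      fin_cases i <;> fin_cases k <;>
        simp [zMat, Matrix.mul_apply, Fin.sum_univ_two, e00, e11, e01, ← e10, Matrix.vecMul,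
          dotProduct]
      all_goals ring)] at this
    exact this
  have hstep : ∀ {n : ℕ} (gn : GoodIndex L n) (gn' : GoodIndex (L * q) n) (c : R)
      (x z : GHom (Gamma0 L) A), degH 1 one_pos h₁ x + degH q hq.pos h₂ z = 0 →
      degH 1 one_pos h₁ (opSub gn c x) + degH q hq.pos h₂ (opSub gn c z) = 0 := by
    intro n gn gn' c x z h
    rw [opSub, opSub, map_sub, map_sub, degH_smul, degH_smul, degH_transfer _ _ gn gn',
      degH_transfer _ _ gn gn', sub_add_sub_comm, ← GalRep.transferHom_add gn', ← smul_add, h,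
      smul_zero, transferHom_zero, sub_zero]
  induction k with
  | zero =>
    intro x z hx hz hrel hk _
    rw [Function.iterate_zero, id_eq] at hk
    exact hkey x z hx hz hrel (by rw [hk, transferHom_zero, smul_zero])
      (by rw [hk, transferHom_zero, smul_zero])
  | succ k ihk =>
    intro x z hx hz hrel hk hj
    rw [Function.iterate_succ_apply] at hk
    have hcomm : Function.Commute (opSub (A := A) hgB b) (opSub hg a) := fun w => by
      simp only [opSub, transferHom_sub, transferHom_smul, smul_sub, smul_smul, mul_comm b a]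
      rw [GalRep.transferHom_comm hg hgB]
      abel
    have hA : opSub hg a x = 0 := by
      refine (ihk _ _ (opSub_mem hg a hx) (opSub_mem hg a hz) (hstep hg hg' a x z hrel) hk ?_).1
      rw [(hcomm.iterate_left j).eq, hj, opSub, transferHom_zero, smul_zero, sub_zero]
    clear hk ihk
    induction j generalizing x z with
    | zero =>
      rw [Function.iterate_zero, id_eq] at hj
      exact hkey x z hx hz hrel (sub_eq_zero.mp hA) (by rw [hj, transferHom_zero, smul_zero])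
    | succ j ihj =>
      rw [Function.iterate_succ_apply] at hj
      have hB : opSub hgB b x = 0 := by
        refine (ihj _ _ (opSub_mem hgB b hx) (opSub_mem hgB b hz) (hstep hgB hgB' b x z hrel) hj
          ?_).1
        rw [← hcomm x, hA, opSub, transferHom_zero, smul_zero, sub_zero]
      exact hkey x z hx hz hrel (sub_eq_zero.mp hA) (sub_eq_zero.mp hB)

/-- Pairs with a generalised eigen second component vanish. -/
theorem pair_eq_zero' {L q : ℕ} [NeZero L] (hq : q.Prime) (hqL : ¬ q ∣ L)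
    {ℓ : ℕ} (hg : GoodIndex L ℓ) (hg' : GoodIndex (L * q) ℓ)
    (hℓbad : ¬ (ℓ : ℤ) ∣ (q : ℤ) ^ (4 * L ^ 2) - 1) {a : R}
    (hne : ∀ v : A, (a ^ 2 - ((ℓ : R) + 1) ^ 2) • v = 0 → v = 0)
    {m : ℕ} (hgB : GoodIndex L m) (hgB' : GoodIndex (L * q) m) (hB1 : (L : ℤ) ∣ (m : ℤ) - 1)
    {b : R} (hneB : ∀ v : A, (b - ((m : R) + 1)) • v = 0 → v = 0)
    (h₁ : L * 1 ∣ L * q) (h₂ : L * q ∣ L * q) (k j : ℕ) (x z : GHom (Gamma0 L) A)
    (hx : x ∈ ParHom L A) (hz : z ∈ ParHom L A)
    (hrel : degH 1 one_pos h₁ x + degH q hq.pos h₂ z = 0)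
    (hk : (opSub hg a)^[k] z = 0) (hj : (opSub hgB b)^[j] z = 0) : x = 0 ∧ z = 0 := by
  have hnat : ∀ {n : ℕ} (gn : GoodIndex L n) (gn' : GoodIndex (L * q) n) (c : R) (i : ℕ),
      (opSub gn c)^[i] z = 0 → (opSub gn c)^[i] x = 0 := by
    intro n gn gn' c i hi
    have hpar : (opSub gn c)^[i] x ∈ ParHom L A := by
      clear hi
      induction i with
      | zero => exact hx
      | succ i ih => rw [Function.iterate_succ_apply']; exact opSub_mem gn c ih
    have key : degH 1 one_pos h₁ ((opSub gn c)^[i] x) +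
        degH q hq.pos h₂ ((opSub gn c)^[i] z) = 0 := by
      clear hi hpar
      induction i with
      | zero => exact hrel
      | succ i ih =>
        rw [Function.iterate_succ_apply', Function.iterate_succ_apply', opSub, opSub, map_sub,
          map_sub, degH_smul, degH_smul, degH_transfer _ _ gn gn', degH_transfer _ _ gn gn',
          sub_add_sub_comm, ← GalRep.transferHom_add gn', ← smul_add, ih, smul_zero,
          transferHom_zero, sub_zero]
    rw [hi, map_zero, add_zero] at key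
    exact degH_one_injective hq hqL h₁ hpar key
  exact pair_eq_zero hq hqL hg hg' hℓbad hne hgB hgB' hB1 hneB h₁ h₂ k j x z hx hz hrel
    (hnat hg hg' a k hk) (hnat hgB hgB' b j hj)

end Fermat.Agent.R59.Raise
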