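import Mathlib

/-!
S59, unit C2: in `SL(2, F_q)` some cyclic subgroup of index prime to the odd prime `p ≠ q` is
inverted by conjugation: a split or non-split torus, or the trivial group.
-/

set_option autoImplicit false
set_option linter.unusedSectionVars false

noncomputable section

namespace Fermat.Agent.R59.Raise

open scoped MatrixGroups
open Polynomial

variable (q : ℕ) [Fact q.Prime]

theorem card_sl2_mul : Nat.card SL(2, ZMod q) * (q - 1) = (q ^ 2 - 1) * (q ^ 2 - q) := by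
  have h1 : (Matrix.GeneralLinearGroup.det : GL (Fin 2) (ZMod q) →* (ZMod q)ˣ).ker.index = q - 1 := by
    rw [Subgroup.index_ker]
    have hs : (Matrix.GeneralLinearGroup.det : GL (Fin 2) (ZMod q) →* (ZMod q)ˣ).range = ⊤ := by
      refine MonoidHom.range_eq_top.mpr fun u => ⟨Matrix.GeneralLinearGroup.mkOfDetNeZero
        !![(u : ZMod q), 0; 0, 1] (by simp), Units.ext ?_⟩
      simp [Matrix.GeneralLinearGroup.mkOfDetNeZero, Matrix.GeneralLinearGroup.val_det_apply]
    rw [hs, Subgroup.card_top, Nat.card_units, Nat.card_zmod]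
  have h2 : Nat.card (Matrix.GeneralLinearGroup.det : GL (Fin 2) (ZMod q) →* (ZMod q)ˣ).ker =
      Nat.card SL(2, ZMod q) := by
    refine Nat.card_congr
      { toFun := fun g => ⟨(g.1 : Matrix (Fin 2) (Fin 2) (ZMod q)), ?_⟩
        invFun := fun g => ⟨Matrix.SpecialLinearGroup.toGL g, ?_⟩
        left_inv := fun g => Subtype.ext (Units.ext rfl)
        right_inv := fun g => Subtype.ext rfl }
    · have := congrArg Units.val (MonoidHom.mem_ker.mp g.2)
      simpa [Matrix.GeneralLinearGroup.val_det_apply] using this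
    · exact MonoidHom.mem_ker.mpr (Units.ext (by simp [Matrix.GeneralLinearGroup.val_det_apply]))
  have h3 := Subgroup.card_mul_index
    (Matrix.GeneralLinearGroup.det : GL (Fin 2) (ZMod q) →* (ZMod q)ˣ).ker
  rw [h1, h2] at h3
  rw [h3, Matrix.card_GL_field, Fin.prod_univ_two, ZMod.card]
  simp

theorem card_sl2 : Nat.card SL(2, ZMod q) = q * (q + 1) * (q - 1) := by
  have hq := (Fact.out : q.Prime).two_le
  refine Nat.eq_of_mul_eq_mul_right (m := q - 1) (by omega) ?_
  rw [card_sl2_mul, show q ^ 2 - 1 = (q + 1) * (q - 1) by simpa using Nat.sq_sub_sq q 1,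
    show q ^ 2 - q = q * (q - 1) by rw [pow_two, Nat.mul_sub_one]]
  ring

/-- A non-degenerate binary form represents `-1`. -/
theorem exists_form_neg_one {q : ℕ} [Fact q.Prime] (hq2 : q ≠ 2) (t : ZMod q) (ht : t ^ 2 ≠ 4) :
    ∃ a b : ZMod q, a ^ 2 + t * a * b + b ^ 2 = -1 := by
  have h2 : (2 : ZMod q) ≠ 0 := by
    intro h
    exact hq2 ((Nat.prime_dvd_prime_iff_eq Fact.out Nat.prime_two).mp
      ((ZMod.natCast_eq_zero_iff 2 q).mp (by exact_mod_cast h)))
  have h4 : (4 : ZMod q) ≠ 0 := by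
    rw [show (4 : ZMod q) = 2 * 2 by norm_num]; exact mul_ne_zero h2 h2
  have hD : (1 - t ^ 2 / 4 : ZMod q) ≠ 0 := fun h => ht (by
    field_simp at h; linear_combination -h)
  obtain ⟨x, y, hxy⟩ := FiniteField.exists_root_sum_quadratic (R := ZMod q)
    (f := X ^ 2) (g := C (1 - t ^ 2 / 4) * X ^ 2 + C 1) (degree_X_pow 2)
    (by rw [degree_add_C (by rw [degree_C_mul_X_pow 2 hD]; decide), degree_C_mul_X_pow 2 hD]; rfl)
    (by rw [ZMod.card]; exact (Fact.out : q.Prime).odd_of_ne_two hq2 |> Nat.odd_iff.mp)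
  refine ⟨x - t / 2 * y, y, ?_⟩
  simp at hxy
  field_simp at hxy ⊢
  linear_combination hxy

/-- A cyclic subgroup of index prime to `p` inverted by some element. -/
theorem exists_inverted {p : ℕ} (hp : p.Prime) (hp2 : p ≠ 2) (hqp : q ≠ p) :
    ∃ σ w : SL(2, ZMod q), w * σ * w⁻¹ = σ⁻¹ ∧ ¬ p ∣ (Subgroup.zpowers σ).index := by
  have hq := (Fact.out : q.Prime)
  have hpq : ¬ p ∣ q := fun h => hqp ((Nat.prime_dvd_prime_iff_eq hp hq).mp h).symm
  have hboth : ¬ (p ∣ q - 1 ∧ p ∣ q + 1) := fun ⟨h1, h2⟩ => hp2 ((Nat.prime_dvd_prime_iff_eq hp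
    Nat.prime_two).mp (by
      have := Nat.dvd_sub h2 h1
      rwa [show q + 1 - (q - 1) = 2 by have := hq.two_le; omega] at this))
  -- it is enough to find the order
  have key : ∀ (σ : SL(2, ZMod q)) (n r : ℕ), n ∣ orderOf σ → n * r = q * (q + 1) * (q - 1) → 0 < n →
      ¬ p ∣ r → ¬ p ∣ (Subgroup.zpowers σ).index := fun σ n r hn hr hn0 hpr h => by
    have := Subgroup.index_mul_card (Subgroup.zpowers σ)
    rw [Nat.card_zpowers, card_sl2, ← hr] at this
    obtain ⟨c, hc⟩ := hn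
    rw [hc] at this
    exact hpr (h.trans ⟨c, Nat.eq_of_mul_eq_mul_left hn0 (this.symm.trans (by ring))⟩)
  by_cases h1 : p ∣ q - 1
  · obtain ⟨g, hg⟩ := IsCyclic.exists_ofOrder_eq_natCard (α := (ZMod q)ˣ)
    rw [Nat.card_units, Nat.card_zmod] at hg
    let D : (ZMod q)ˣ →* SL(2, ZMod q) :=
      MonoidHom.mk' (fun u => ⟨!![(u : ZMod q), 0; 0, ((u⁻¹ : (ZMod q)ˣ) : ZMod q)],
        by rw [Matrix.det_fin_two_of, mul_zero, sub_zero, Units.mul_inv]⟩) fun u v => Subtype.ext (by
          show !![((u * v : (ZMod q)ˣ) : ZMod q), 0; 0, (((u * v)⁻¹ : (ZMod q)ˣ) : ZMod q)] =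
            !![(u : ZMod q), 0; 0, ((u⁻¹ : (ZMod q)ˣ) : ZMod q)] *
              !![(v : ZMod q), 0; 0, ((v⁻¹ : (ZMod q)ˣ) : ZMod q)]
          rw [Matrix.mul_fin_two, mul_inv, Units.val_mul, Units.val_mul]
          congr 1 <;> ring_nf)
    refine ⟨D g, ⟨!![0, -1; 1, 0], by rw [Matrix.det_fin_two_of]; ring⟩, ?_,
      key _ (q - 1) (q * (q + 1)) ?_ (by ring) (by have := hq.two_le; omega) ?_⟩
    · rw [← map_inv, mul_inv_eq_iff_eq_mul]
      refine Subtype.ext ?_
      show !![(0 : ZMod q), -1; 1, 0] * !![(g : ZMod q), 0; 0, ((g⁻¹ : (ZMod q)ˣ) : ZMod q)] =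
        !![((g⁻¹ : (ZMod q)ˣ) : ZMod q), 0; 0, ((g⁻¹⁻¹ : (ZMod q)ˣ) : ZMod q)] * !![0, -1; 1, 0]
      rw [Matrix.mul_fin_two, Matrix.mul_fin_two, inv_inv]
      congr 1 <;> ring_nf
    · rw [orderOf_injective D (fun u v h => Units.ext (by
        exact congrFun (congrFun (congrArg Subtype.val h) 0) 0)) g, hg]
    · exact fun h => ((hp.dvd_mul.mp h).resolve_left hpq) |> fun h2 => hboth ⟨h1, h2⟩
  by_cases h2 : p ∣ q + 1
  swap
  · exact ⟨1, 1, by simp, key 1 1 _ (one_dvd _) (one_mul _) one_pos fun h =>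
      (hp.dvd_mul.mp h).elim (fun h => (hp.dvd_mul.mp h).elim hpq h2) h1⟩
  -- the non-split torus
  haveI : Fintype (GaloisField q 2) := Fintype.ofFinite _
  obtain ⟨g, hg⟩ := IsCyclic.exists_ofOrder_eq_natCard (α := (GaloisField q 2)ˣ)
  rw [Nat.card_units, GaloisField.card q 2 two_ne_zero] at hg
  set u := g ^ (q - 1)
  have hu : orderOf u = q + 1 := by
    have e2 : q ^ 2 - 1 = (q + 1) * (q - 1) := by simpa using Nat.sq_sub_sq q 1
    rw [orderOf_pow_of_dvd (by have := hq.two_le; omega) (by rw [hg, e2]; exact dvd_mul_left _ _),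
      hg, e2, Nat.mul_div_cancel _ (by have := hq.two_le; omega)]
  -- the trace lies in the prime field
  obtain ⟨t, ht⟩ : ∃ t : ZMod q, algebraMap (ZMod q) (GaloisField q 2) t =
      (u : GaloisField q 2) + ((u⁻¹ : (GaloisField q 2)ˣ) : GaloisField q 2) := by
    have hfix : ((u : GaloisField q 2) + ((u⁻¹ : (GaloisField q 2)ˣ) : GaloisField q 2)) ^ q =
        (u : GaloisField q 2) + ((u⁻¹ : (GaloisField q 2)ˣ) : GaloisField q 2) := by
      have e : u ^ q = u⁻¹ := by
        rw [eq_inv_iff_mul_eq_one, ← pow_succ, ← hu, pow_orderOf_eq_one]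
      have e' : u⁻¹ ^ q = u := by rw [inv_pow, e, inv_inv]
      rw [add_pow_char, ← Units.val_pow_eq_pow_val, ← Units.val_pow_eq_pow_val, e, e', add_comm]
    have hbot := (Subfield.mem_bot_iff_pow_eq_self (F := GaloisField q 2) (p := q)).mpr hfix
    obtain ⟨t, ht⟩ := (bot_le : (⊥ : Subfield (GaloisField q 2)) ≤
      (algebraMap (ZMod q) (GaloisField q 2)).fieldRange) hbot
    exact ⟨t, ht⟩
  have htne : q ≠ 2 → t ^ 2 ≠ 4 := fun hq2 h => by
    have h' := congrArg (algebraMap (ZMod q) (GaloisField q 2)) h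
    rw [map_pow, ht, map_ofNat] at h'
    have h'' : ((u : GaloisField q 2) - ((u⁻¹ : (GaloisField q 2)ˣ) : GaloisField q 2)) ^ 2 = 0 := by
      linear_combination h' - 4 * u.mul_inv
    have e : u ^ 2 = 1 := by
      rw [pow_two]
      nth_rw 2 [Units.ext (sub_eq_zero.mp (pow_eq_zero_iff two_ne_zero |>.mp h''))]
      exact mul_inv_cancel u
    have := orderOf_dvd_of_pow_eq_one e
    rw [hu] at this
    have := Nat.le_of_dvd two_pos this
    have := hq.two_le
    omega
  let σ : SL(2, ZMod q) := ⟨!![0, -1; 1, t], by simp [Matrix.det_fin_two_of]⟩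
  have hσ : (q + 1) ∣ orderOf σ := by
    rw [← hu]
    refine orderOf_dvd_of_pow_eq_one (Units.ext ?_)
    have hv : ∀ n : ℕ, ((((σ ^ n : SL(2, ZMod q)) : Matrix (Fin 2) (Fin 2) (ZMod q)).map
        (algebraMap (ZMod q) (GaloisField q 2))).mulVec ![1, -(u : GaloisField q 2)]) =
        ((u : GaloisField q 2) ^ n) • ![1, -(u : GaloisField q 2)] := fun n => by
      induction n with
      | zero => simp
      | succ n ih =>
        rw [pow_succ', Matrix.SpecialLinearGroup.coe_mul, Matrix.map_mul, ← Matrix.mulVec_mulVec, ih,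
          Matrix.mulVec_smul, pow_succ' (u : GaloisField q 2), mul_smul, smul_comm]
        congr 1
        ext i
        fin_cases i <;> simp [σ, Matrix.mulVec, dotProduct, Fin.sum_univ_two, ht, Units.val_inv_eq_inv_val]
        field_simp
        ring
    have := congrFun (hv (orderOf σ)) 0
    simpa [pow_orderOf_eq_one] using this.symm
  -- a reflection
  obtain ⟨a, b, hab⟩ : ∃ a b : ZMod q, a ^ 2 + t * a * b + b ^ 2 = -1 := by
    by_cases h : q = 2
    · subst h
      exact ⟨1, 0, by simp [CharTwo.neg_eq]⟩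
    · exact exists_form_neg_one h t (htne h)
  let w : SL(2, ZMod q) := ⟨!![a + t * b, -b + t * (a + b * t); -b, -(a + b * t)], by
    rw [Matrix.det_fin_two_of]
    linear_combination -hab⟩
  refine ⟨σ, w, ?_, key _ (q + 1) (q * (q - 1)) hσ (by ring) (by omega) fun h =>
    h1 ((hp.dvd_mul.mp h).resolve_left hpq)⟩
  rw [mul_inv_eq_iff_eq_mul]
  refine Subtype.ext ?_
  rw [Matrix.SpecialLinearGroup.coe_mul, Matrix.SpecialLinearGroup.coe_mul,
    Matrix.SpecialLinearGroup.coe_inv]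
  show !![a + t * b, -b + t * (a + b * t); -b, -(a + b * t)] * !![0, -1; 1, t] =
    Matrix.adjugate !![0, -1; 1, t] * !![a + t * b, -b + t * (a + b * t); -b, -(a + b * t)]
  rw [Matrix.adjugate_fin_two_of, Matrix.mul_fin_two, Matrix.mul_fin_two]
  congr 1 <;> ring_nf

end Fermat.Agent.R59.Raise
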