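import Fermat.Agent.R59.Raise.Extend
import Fermat.Agent.R59.Raise.SL2Fin
import Fermat.Agent.R59.Raised.Ops
import Fermat.Agent.GalRep.Level.SL2

/-!
S59, unit C2: the second step of Ihara's lemma.  Two classes of level `L q` with vanishing image at
level `L q²` glue to a class of the principal subgroup at `q` invariant under `Γ₀(L)`, which
extends to `Γ₀(L)`; so off the Eisenstein systems they come from level `L`.
-/

set_option autoImplicit false
set_option linter.unusedSectionVars false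

noncomputable section

namespace Fermat.Agent.R59.Raise

open CongruenceSubgroup
open Fermat.Agent.Raise (GHom ZMat zMat zMat_mul zMat_one det_zMat mkSL lZ lZ_mem mem_gamma0_iff_dvd
  mul_left_cancel_det det_two)
open Fermat.Agent.GalRep (GoodIndex heckeRep transferHom transferHom_apply trCoef trIdx trSpec
  tr_unique ParHom trace_pow_sq_eq_four)
open Fermat.Agent.GalRep.Level (red red_apply red_eq_one_iff)
open Fermat.Agent.R59.Raised (degH degH_apply_of_eq degH_one_apply gamma0_anti)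
open scoped MatrixGroups

variable {p q L : ℕ} {A : Type} [AddCommGroup A]

theorem eq_zero_of_nsmul (hp : p.Prime) (hA : ∀ v : A, p • v = 0) {n : ℕ} (hn : ¬ p ∣ n) {v : A}
    (h : n • v = 0) : v = 0 := by
  obtain ⟨a, b, hab⟩ := Nat.isCoprime_iff_coprime.mpr ((hp.coprime_iff_not_dvd.mpr hn))
  rw [← one_smul ℤ v, ← hab, add_smul, mul_smul, mul_smul, natCast_zsmul, natCast_zsmul, hA, h,
    smul_zero, smul_zero, add_zero]

theorem lZ_apply (M : ℤ) (i j : Fin 2) : ((lZ M : SL(2, ℤ)) : ZMat) i j = !![(1 : ℤ), 0; M, 1] i j := rfl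

/-- Reduction modulo `q` is onto on `Γ₀(L)`. -/
theorem red_surjective [Fact q.Prime] (hqL : ¬ q ∣ L) :
    Function.Surjective ((red q).comp (Gamma0 L).subtype) := by
  set π := (red q).comp (Gamma0 L).subtype
  have hL0 : (L : ZMod q) ≠ 0 := fun h => hqL ((ZMod.natCast_eq_zero_iff _ _).mp h)
  let upp : ZMod q → SL(2, ZMod q) := fun s => ⟨!![1, s; 0, 1], by simp [Matrix.det_fin_two_of]⟩
  let low : ZMod q → SL(2, ZMod q) := fun s => ⟨!![1, 0; s, 1], by simp [Matrix.det_fin_two_of]⟩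
  have hupp : ∀ s, upp s ∈ π.range := fun s =>
    ⟨⟨ModularGroup.T ^ ((s.val : ℕ) : ℤ), mem_gamma0_iff_dvd.mpr
      (by simp [ModularGroup.coe_T_zpow])⟩, Subtype.ext (by
      ext i j
      show red q _ i j = _
      rw [red_apply]
      fin_cases i <;> fin_cases j <;> simp [upp, ModularGroup.coe_T_zpow])⟩
  have hlow : ∀ s, low s ∈ π.range := fun s =>
    ⟨⟨lZ ((L : ℤ) * ((s / (L : ZMod q)).val : ℕ)), lZ_mem (dvd_mul_right _ _)⟩, Subtype.ext (by
      ext i j
      show red q _ i j = _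
      rw [red_apply]
      show ((((lZ _ : SL(2, ℤ)) : ZMat) i j : ℤ) : ZMod q) = _
      rw [lZ_apply]
      fin_cases i <;> fin_cases j <;> simp [low]
      field_simp)⟩
  have key : ∀ G : SL(2, ZMod q), G 1 0 ≠ 0 → G ∈ π.range := fun G hc => by
    have e : G = upp ((G 0 0 - 1) / G 1 0) * low (G 1 0) * upp ((G 1 1 - 1) / G 1 0) := by
      have hdet := G.2
      rw [Matrix.det_fin_two] at hdet
      refine Subtype.ext ?_
      rw [Matrix.SpecialLinearGroup.coe_mul, Matrix.SpecialLinearGroup.coe_mul,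
        Matrix.eta_fin_two (G : Matrix (Fin 2) (Fin 2) (ZMod q))]
      simp only [upp, low, Matrix.mul_fin_two]
      ext i j
      fin_cases i <;> fin_cases j <;> simp <;> field_simp <;> first
        | ring1
        | linear_combination hdet
        | linear_combination -hdet
    rw [e]
    exact mul_mem (mul_mem (hupp _) (hlow _)) (hupp _)
  intro G
  by_cases hc : G 1 0 = 0
  · have hd : G 1 1 ≠ 0 := fun h => by
      have hdet := G.2
      rw [Matrix.det_fin_two, hc, h, mul_zero, mul_zero, sub_zero] at hdet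
      exact zero_ne_one hdet
    have := key (G * low 1) (by simpa [low, Matrix.mul_apply, Fin.sum_univ_two, hc] using hd)
    simpa using π.range.mul_mem this (π.range.inv_mem (hlow 1))
  · exact key G hc

/-- The lower right entry of a Hecke coefficient. -/
theorem trCoef_eleven {M n ℓ : ℕ} (hg : GoodIndex M ℓ) (hn : (n : ℤ) ∣ (M : ℤ))
    (h1 : (n : ℤ) ∣ (ℓ : ℤ) - 1) (γ : Gamma0 M) (i : Option (Fin ℓ)) :
    (((trCoef hg γ i : SL(2, ℤ)) 1 1 : ℤ) : ZMod n) = (((γ : SL(2, ℤ)) 1 1 : ℤ) : ZMod n) := by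
  have e := congrFun (congrFun (trSpec hg γ i) 1) 1
  simp [Fermat.Agent.GalRep.gMat, Matrix.mul_apply, Fin.sum_univ_two] at e
  have hc := hn.trans (mem_gamma0_iff_dvd.mp (trCoef hg γ i).2)
  rw [← ZMod.intCast_zmod_eq_zero_iff_dvd] at hc h1
  push_cast at h1
  rw [sub_eq_zero] at h1
  have e' := congrArg (fun z : ℤ => (z : ZMod n)) e
  push_cast at e'
  rw [hc, zero_mul, zero_add] at e'
  generalize trIdx hg γ i = j at e'
  rcases i with _ | b <;> rcases j with _ | c <;>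
    simp [heckeRep, h1] at e' ⊢ <;> linear_combination -e'

theorem degH_one_transfer {M M' ℓ : ℕ} (h : M * 1 ∣ M') (hM' : GoodIndex M' ℓ) (hM : GoodIndex M ℓ)
    (z : GHom (Gamma0 M) A) :
    degH 1 one_pos h (transferHom hM z) = transferHom hM' (degH 1 one_pos h z) := by
  refine AddMonoidHom.ext fun t => ?_
  obtain ⟨γ, rfl⟩ := Additive.ofMul.surjective t
  rw [degH_one_apply, transferHom_apply, transferHom_apply]
  exact Finset.sum_congr rfl fun i _ => by
    rw [degH_one_apply, (tr_unique hM (γ := ⟨γ, gamma0_anti ((mul_one M) ▸ h) γ.2⟩)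
      (g := ⟨trCoef hM' γ i, gamma0_anti ((mul_one M) ▸ h) (trCoef hM' γ i).2⟩)
      (trSpec hM' γ i)).2]

/-- The second step of Ihara's lemma. -/
theorem stepTwo_exact {R : Type} [CommRing R] [Module R A] (hp : p.Prime) (hp2 : p ≠ 2)
    (hq : q.Prime) (hqp : q ≠ p) (hqL : ¬ q ∣ L) (hA : ∀ v : A, p • v = 0)
    {x y : GHom (Gamma0 (L * q)) A} (hy : y ∈ ParHom (L * q) A)
    (h₁ : L * q * 1 ∣ L * q ^ 2) (h₂ : L * q * q ∣ L * q ^ 2)
    (hrel : degH 1 one_pos h₁ x + degH q hq.pos h₂ y = 0)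
    {ℓ : ℕ} (hg : GoodIndex (L * q) ℓ) (hg₀ : GoodIndex L ℓ) (hℓ : (q : ℤ) ∣ (ℓ : ℤ) - 1) (a : R)
    (hu : IsUnit (((ℓ : R) + 1) - a)) (k : ℕ)
    (hnil : (fun w => transferHom hg w - a • w)^[k] y = 0) :
    ∃ z ∈ ParHom L A, y = degH 1 one_pos (mul_dvd_mul_left L (one_dvd q)) z := by
  classical
  haveI := Fact.mk hq
  set π := (red q).comp (Gamma0 L).subtype
  have hLq : ∀ γ : SL(2, ℤ), γ ∈ Gamma0 (L * q) ↔ γ ∈ Gamma0 L ∧ (q : ℤ) ∣ γ 1 0 := fun γ => by
    rw [mem_gamma0_iff_dvd, mem_gamma0_iff_dvd, Nat.cast_mul]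
    exact ⟨fun h => ⟨(dvd_mul_right _ _).trans h, (dvd_mul_left _ _).trans h⟩, fun h =>
      IsCoprime.mul_dvd (Nat.isCoprime_iff_coprime.mpr (hq.coprime_iff_not_dvd.mpr hqL).symm) h.1 h.2⟩
  have hker : ∀ γ : π.ker, ((γ : Gamma0 L) : SL(2, ℤ)) ∈ Gamma0 (L * q) := fun γ => by
    refine (hLq _).mpr ⟨(γ : Gamma0 L).2, (ZMod.intCast_zmod_eq_zero_iff_dvd _ _).mp ?_⟩
    have h : red q ((γ : Gamma0 L) : SL(2, ℤ)) 1 0 = (1 : SL(2, ZMod q)) 1 0 := by
      rw [show red q ((γ : Gamma0 L) : SL(2, ℤ)) = 1 from γ.2]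
    rw [red_apply] at h
    simpa using h
  -- the second group and the transported class
  let B : Subgroup (Gamma0 L) :=
    { carrier := {δ | (q : ℤ) ∣ (δ : SL(2, ℤ)) 0 1}
      one_mem' := by simp
      mul_mem' := fun {a b} ha hb => by
        show (q : ℤ) ∣ ((a : SL(2, ℤ)) * (b : SL(2, ℤ)) : SL(2, ℤ)) 0 1
        rw [Matrix.SpecialLinearGroup.coe_mul, Matrix.mul_apply, Fin.sum_univ_two]
        exact dvd_add (dvd_mul_of_dvd_right hb _) (dvd_mul_of_dvd_left ha _)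
      inv_mem' := fun {a} ha => by
        show (q : ℤ) ∣ ((a : SL(2, ℤ))⁻¹ : SL(2, ℤ)) 0 1
        rw [Fermat.Agent.Raise.coe_inv_eq]
        simpa using ha }
  have hD : (!![(q : ℤ), 0; 0, 1] : ZMat).det ≠ 0 := by simp [Matrix.det_fin_two_of, hq.ne_zero]
  have hdown : ∀ δ : B, ∃ γ : Gamma0 (L * q),
      zMat (δ : Gamma0 L) * !![(q : ℤ), 0; 0, 1] = !![(q : ℤ), 0; 0, 1] * zMat γ := fun δ => by
    obtain ⟨b, hb⟩ := δ.2
    obtain ⟨c, hc⟩ := mem_gamma0_iff_dvd.mp (δ : Gamma0 L).2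
    refine ⟨⟨mkSL (((δ : Gamma0 L) : SL(2, ℤ)) 0 0) b ((L : ℤ) * q * c)
      (((δ : Gamma0 L) : SL(2, ℤ)) 1 1) (by
        have e := det_two ((δ : Gamma0 L) : SL(2, ℤ))
        rw [hb, hc] at e
        linear_combination e), mem_gamma0_iff_dvd.mpr (by simp)⟩, ?_⟩
    ext i j
    fin_cases i <;> fin_cases j <;> simp [zMat, Matrix.mul_apply, Fin.sum_univ_two, hb, hc] <;> ring
  choose down hdown using hdown
  let x' : B → A := fun δ => x (Additive.ofMul (down δ))
  have hx' : ∀ a b : B, x' (a * b) = x' a + x' b := fun a b => by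
    have e : down (a * b) = down a * down b := Fermat.Agent.Raise.zMat_injective
      (mul_left_cancel_det hD (by
        rw [zMat_mul, ← mul_assoc, ← hdown, ← hdown, Subgroup.coe_mul, zMat_mul, mul_assoc, hdown b,
          ← mul_assoc, hdown a, mul_assoc]))
    show x (Additive.ofMul (down (a * b))) = _
    rw [e, ofMul_mul, map_add]
  let φ : π.ker → A := fun γ => y (Additive.ofMul ⟨_, hker γ⟩)
  have hB : ∀ γ : π.ker, (γ : Gamma0 L) ∈ B := fun γ => by
    show (q : ℤ) ∣ _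
    rw [← ZMod.intCast_zmod_eq_zero_iff_dvd]
    have h : red q ((γ : Gamma0 L) : SL(2, ℤ)) 0 1 = (1 : SL(2, ZMod q)) 0 1 := by
      rw [show red q ((γ : Gamma0 L) : SL(2, ℤ)) = 1 from γ.2]
    rw [red_apply] at h
    simpa using h
  have hφx : ∀ γ : π.ker, φ γ = -x' ⟨_, hB γ⟩ := fun γ => by
    set δ : B := ⟨_, hB γ⟩
    have hm : ((down δ : Gamma0 (L * q)) : SL(2, ℤ)) ∈ Gamma0 (L * q ^ 2) := by
      refine mem_gamma0_iff_dvd.mpr ?_
      obtain ⟨t, ht⟩ := mem_gamma0_iff_dvd.mp (hker γ)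
      have e := congrFun (congrFun (hdown δ) 1) 0
      simp [zMat, Matrix.mul_apply, Fin.sum_univ_two] at e
      exact ⟨t, by rw [← e, ht]; push_cast; ring⟩
    have h := DFunLike.congr_fun hrel (Additive.ofMul (⟨_, hm⟩ : Gamma0 (L * q ^ 2)))
    rw [AddMonoidHom.add_apply, AddMonoidHom.zero_apply, degH_one_apply,
      degH_apply_of_eq hq.pos h₂ y (g := ⟨_, hker γ⟩) (hdown δ).symm] at h
    exact eq_neg_of_add_eq_zero_right h
  have hφ : ∀ a b, φ (a * b) = φ a + φ b := fun a b => by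
    show y _ = y _ + y _
    rw [← map_add, ← ofMul_mul]
    rfl
  have hinv : ∀ (g : Gamma0 L) (a : π.ker),
      φ ⟨g * a * g⁻¹, π.normal_ker.conj_mem _ a.2 g⟩ = φ a := by
    let Inv : Subgroup (Gamma0 L) :=
      { carrier := {g | ∀ a : π.ker, φ ⟨g * a * g⁻¹, π.normal_ker.conj_mem _ a.2 g⟩ = φ a}
        one_mem' := fun a => by congr 1; exact Subtype.ext (by simp)
        mul_mem' := fun {g h} hg hh a => by
          rw [← hh a, ← hg ⟨h * a * h⁻¹, π.normal_ker.conj_mem _ a.2 h⟩]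
          congr 1
          exact Subtype.ext (by simp [mul_assoc])
        inv_mem' := fun {g} hg a => by
          rw [← hg ⟨g⁻¹ * a * g⁻¹⁻¹, π.normal_ker.conj_mem _ a.2 g⁻¹⟩]
          congr 1
          exact Subtype.ext (by simp [mul_assoc]) }
    have h1 : ∀ g : Gamma0 L, (q : ℤ) ∣ (g : SL(2, ℤ)) 1 0 → g ∈ Inv := fun g hg a => by
      have hgm : (g : SL(2, ℤ)) ∈ Gamma0 (L * q) := (hLq _).mpr ⟨g.2, hg⟩
      show y _ = y _
      rw [show (⟨_, hker ⟨g * a * g⁻¹, _⟩⟩ : Gamma0 (L * q)) =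
        ⟨_, hgm⟩ * ⟨_, hker a⟩ * (⟨_, hgm⟩)⁻¹ from Subtype.ext rfl, ofMul_mul, ofMul_mul, ofMul_inv,
        map_add, map_add, map_neg, add_neg_cancel_comm]
    have h2 : ∀ g : Gamma0 L, g ∈ B → g ∈ Inv := fun g hg a => by
      rw [hφx, hφx, show (⟨_, hB ⟨g * a * g⁻¹, _⟩⟩ : B) = ⟨g, hg⟩ * ⟨_, hB a⟩ * ⟨g, hg⟩⁻¹ from
        Subtype.ext rfl, hx', hx', show x' (⟨g, hg⟩⁻¹ : B) = -x' ⟨g, hg⟩ from by
          have := hx' ⟨g, hg⟩⁻¹ ⟨g, hg⟩
          rw [inv_mul_cancel] at this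
          have h0 := hx' 1 1
          rw [one_mul, right_eq_add] at h0
          rw [h0] at this
          exact eq_neg_of_add_eq_zero_left this.symm]
      abel
    intro g
    suffices hg : g ∈ Inv from hg
    by_cases hc : (q : ℤ) ∣ (g : SL(2, ℤ)) 1 0
    · exact h1 g hc
    have hc0 : (((g : SL(2, ℤ)) 1 0 : ℤ) : ZMod q) ≠ 0 := fun h =>
      hc ((ZMod.intCast_zmod_eq_zero_iff_dvd _ _).mp h)
    have hL0 : (L : ZMod q) ≠ 0 := fun h => hqL ((ZMod.natCast_eq_zero_iff _ _).mp h)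
    set n : ℤ := (((1 - ((g : SL(2, ℤ)) 0 0 : ℤ) : ZMod q) / (((g : SL(2, ℤ)) 1 0 : ℤ) : ZMod q)).val : ℤ)
    set m : ℤ := ((-(((g : SL(2, ℤ)) 1 0 : ℤ) : ZMod q) / (L : ZMod q)).val : ℤ)
    set t : Gamma0 L := ⟨ModularGroup.T ^ n, mem_gamma0_iff_dvd.mpr (by simp [ModularGroup.coe_T_zpow])⟩
    set l : Gamma0 L := ⟨lZ ((L : ℤ) * m), lZ_mem (dvd_mul_right _ _)⟩
    have h3 : l * (t * g) ∈ Inv := h1 _ (by
      have e : (((l * (t * g) : Gamma0 L) : SL(2, ℤ)) : ZMat) 1 0 =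
          (L : ℤ) * m * ((g : SL(2, ℤ)) 0 0 + n * (g : SL(2, ℤ)) 1 0) + (g : SL(2, ℤ)) 1 0 := by
        simp [l, t, Matrix.mul_apply, Fin.sum_univ_two, ModularGroup.coe_T_zpow, lZ_apply,
          Matrix.vecMul, dotProduct]
      rw [show ((l * (t * g) : Gamma0 L) : SL(2, ℤ)) 1 0 = _ from e,
        ← ZMod.intCast_zmod_eq_zero_iff_dvd]
      simp [n, m]
      field_simp
      try ring)
    have hl : l ∈ Inv := h2 l (by show (q : ℤ) ∣ _; simp [l, lZ_apply])
    have ht : t ∈ Inv := h1 t (by simp [t, ModularGroup.coe_T_zpow])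
    simpa using Inv.mul_mem (Inv.inv_mem ht) (Inv.mul_mem (Inv.inv_mem hl) h3)
  -- extension
  obtain ⟨σ, w, hw, hidx⟩ := exists_inverted q hp hp2 hqp
  obtain ⟨z, hz, hzφ⟩ := exists_extension hp hp2 hA π (red_surjective hqL)
    (isOfFinOrder_of_finite σ) hw hidx φ hφ hinv
  let Z : GHom (Gamma0 L) A := AddMonoidHom.mk' (fun t => z (Additive.toMul t)) fun s t => hz _ _
  have hq2 : ¬ p ∣ 2 * q := fun h => (hp.dvd_mul.mp h).elim
    (fun h => hp2 ((Nat.prime_dvd_prime_iff_eq hp Nat.prime_two).mp h))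
    (fun h => hqp ((Nat.prime_dvd_prime_iff_eq hp hq).mp h).symm)
  have hZ : Z ∈ ParHom L A := by
    intro γ hγ
    refine eq_zero_of_nsmul hp hA hq2 ?_
    have hone : π (γ ^ (2 * q)) = 1 := by
      rw [map_pow, pow_mul]
      refine Subtype.ext ?_
      rw [Matrix.SpecialLinearGroup.coe_pow, Matrix.SpecialLinearGroup.coe_pow,
        Matrix.SpecialLinearGroup.coe_one]
      set G : Matrix (Fin 2) (Fin 2) (ZMod q) := (π γ : Matrix (Fin 2) (Fin 2) (ZMod q))
      have htr : G.trace ^ 2 = 4 := by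
        have h := congrArg (fun t : ℤ => (t : ZMod q)) hγ
        simpa [G, π, red_apply, Matrix.trace_fin_two] using h
      have hdet : G.det = 1 := (π γ).2
      have hN : (G ^ 2 - 1) * (G ^ 2 - 1) = 0 := by
        rw [Matrix.trace_fin_two] at htr
        rw [Matrix.det_fin_two] at hdet
        ext i j
        fin_cases i <;> fin_cases j <;>
          simp [pow_two, Matrix.mul_apply, Fin.sum_univ_two] <;> grobner
      have hpow : ∀ n : ℕ, (1 + (G ^ 2 - 1)) ^ n = 1 + (n : ZMod q) • (G ^ 2 - 1) := fun n => by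
        induction n with
        | zero => simp
        | succ n ih =>
          rw [pow_succ, ih, mul_add, mul_one, add_mul, one_mul, smul_mul_assoc, hN, smul_zero,
            add_zero, Nat.cast_succ, add_smul, one_smul, add_assoc]
      have h := hpow q
      rwa [add_sub_cancel, ZMod.natCast_self, zero_smul, add_zero] at h
    rw [← map_nsmul, ← ofMul_pow]
    show z (γ ^ (2 * q)) = 0
    rw [hzφ ⟨γ ^ (2 * q), MonoidHom.mem_ker.mpr hone⟩]
    refine hy _ ?_
    show ((((γ ^ (2 * q) : Gamma0 L)) : SL(2, ℤ)) : ZMat).trace ^ 2 = 4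
    rw [SubgroupClass.coe_pow, Matrix.SpecialLinearGroup.coe_pow]
    exact trace_pow_sq_eq_four _ (γ : SL(2, ℤ)).det_coe hγ _
  -- the difference
  set h0 : L * 1 ∣ L * q := mul_dvd_mul_left L (one_dvd q)
  set d := y - degH 1 one_pos h0 Z with hd
  have hdT : ∀ n : ℤ, ∀ h : ModularGroup.T ^ n ∈ Gamma0 (L * q),
      d (Additive.ofMul ⟨_, h⟩) = 0 := fun n h => by
    have htr : (((ModularGroup.T ^ n : SL(2, ℤ))) : ZMat).trace ^ 2 = 4 := by
      simp [ModularGroup.coe_T_zpow, Matrix.trace_fin_two]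
    rw [hd, AddMonoidHom.sub_apply, degH_one_apply, hy _ htr, hZ _ htr, sub_zero]
  have hdet' : ∀ γ γ' : Gamma0 (L * q),
      (((γ : SL(2, ℤ)) 1 1 : ℤ) : ZMod q) = (((γ' : SL(2, ℤ)) 1 1 : ℤ) : ZMod q) →
      d (Additive.ofMul γ) = d (Additive.ofMul γ') := fun γ γ' h => by
    have hc : ∀ g : Gamma0 (L * q), (((g : SL(2, ℤ)) 1 0 : ℤ) : ZMod q) = 0 := fun g =>
      (ZMod.intCast_zmod_eq_zero_iff_dvd _ _).mpr ((hLq _).mp g.2).2
    have hd' : ∀ g : Gamma0 (L * q), (((g : SL(2, ℤ)) 0 0 : ℤ) : ZMod q) *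
        (((g : SL(2, ℤ)) 1 1 : ℤ) : ZMod q) = 1 := fun g => by
      have e := congrArg (fun z : ℤ => (z : ZMod q)) (det_two (g : SL(2, ℤ)))
      push_cast at e
      rwa [hc, mul_zero, sub_zero] at e
    set r : ZMod q := ((((γ : SL(2, ℤ)) 0 1 : ℤ) : ZMod q) - (((γ' : SL(2, ℤ)) 0 1 : ℤ) : ZMod q)) /
      (((γ' : SL(2, ℤ)) 1 1 : ℤ) : ZMod q) with hr
    set n : ℤ := (r.val : ℤ)
    have hTm : ModularGroup.T ^ n ∈ Gamma0 (L * q) :=
      mem_gamma0_iff_dvd.mpr (by simp [ModularGroup.coe_T_zpow])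
    set t : Gamma0 (L * q) := ⟨_, hTm⟩
    set e : Gamma0 L := ⟨_, gamma0_anti (dvd_mul_right L q) ((t * γ' * γ⁻¹ : Gamma0 (L * q))).2⟩
    have hπ : π e = 1 := by
      show red q ((ModularGroup.T ^ n) * (γ' : SL(2, ℤ)) * (γ : SL(2, ℤ))⁻¹) = 1
      rw [map_mul, map_inv, mul_inv_eq_one]
      refine Subtype.ext ?_
      ext i j
      rw [red_apply, red_apply]
      have hne : (((γ' : SL(2, ℤ)) 1 1 : ℤ) : ZMod q) ≠ 0 := right_ne_zero_of_mul_eq_one (hd' γ')
      fin_cases i <;> fin_cases j <;>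
        simp [n, r, Matrix.mul_apply, Fin.sum_univ_two, ModularGroup.coe_T_zpow, hc, h]
      · exact mul_right_cancel₀ hne ((hd' γ').trans (by rw [← h]; exact (hd' γ).symm))
      · rw [div_mul_cancel₀ _ hne]; ring
    have h0' : d (Additive.ofMul (t * γ' * γ⁻¹)) = 0 := by
      rw [hd, AddMonoidHom.sub_apply, degH_one_apply]
      show y _ - z e = 0
      rw [hzφ ⟨e, MonoidHom.mem_ker.mpr hπ⟩]
      exact sub_self _
    rw [ofMul_mul, ofMul_mul, ofMul_inv, map_add, map_add, map_neg, hdT, zero_add,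
      add_neg_eq_zero] at h0'
    exact h0'.symm
  -- the Hecke operator
  have hTd : transferHom hg d = ((ℓ : R) + 1) • d := by
    refine AddMonoidHom.ext fun t => ?_
    obtain ⟨γ, rfl⟩ := Additive.ofMul.surjective t
    rw [transferHom_apply, Finset.sum_congr rfl fun i _ =>
      hdet' _ _ (trCoef_eleven hg (by rw [Nat.cast_mul]; exact dvd_mul_left _ _) hℓ γ i),
      Finset.sum_const, Finset.card_univ, Fintype.card_option, Fintype.card_fin,
      AddMonoidHom.smul_apply, ← Nat.cast_smul_eq_nsmul R]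
    push_cast
    rfl
  have hsm : ∀ {M : ℕ} (hgM : GoodIndex M ℓ) (r : R) (w : GHom (Gamma0 M) A),
      transferHom hgM (r • w) = r • transferHom hgM w := fun hgM r w =>
    Fermat.Agent.GalRep.transferHom_comp hgM (DistribSMul.toAddMonoidHom A r) w
  have hadd := Fermat.Agent.GalRep.transferHom_add (A := A) hg
  have hFn : ∀ n : ℕ, (fun w => transferHom hg w - a • w)^[n] y =
      (((ℓ : R) + 1) - a) ^ n • d + degH 1 one_pos h0 ((fun w => transferHom hg₀ w - a • w)^[n] Z) := by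
    intro n
    induction n with
    | zero => simp [hd]
    | succ n ih =>
      rw [Function.iterate_succ_apply', Function.iterate_succ_apply', ih, map_sub,
        degH_one_transfer h0 hg hg₀, hadd, hsm, hTd, smul_add, smul_smul, smul_smul,
        show ∀ (v : GHom (Gamma0 L) A), degH 1 one_pos h0 (a • v) = a • degH 1 one_pos h0 v from
          fun v => (Raised.isFam_deg one_pos h0).trans_comp_coeff (DistribSMul.toAddMonoidHom A a) v,
        pow_succ', sub_mul, sub_smul, mul_comm (((ℓ : R) + 1 - a) ^ n)]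
      abel
  have hpar : ∀ n : ℕ, (fun w => transferHom hg₀ w - a • w)^[n] Z ∈ ParHom L A := fun n => by
    induction n with
    | zero => exact hZ
    | succ n ih =>
      rw [Function.iterate_succ_apply']
      refine sub_mem ?_ fun γ hγ => by rw [AddMonoidHom.smul_apply, ih γ hγ, smul_zero]
      have := (Fermat.Agent.GalRep.heckeHom hg₀ ⟨_, ih⟩).2
      rwa [Fermat.Agent.GalRep.coe_heckeHom] at this
  obtain ⟨v, hv⟩ := (hu.pow k)
  refine ⟨Z - ((v⁻¹ : Rˣ) : R) • (fun w => transferHom hg₀ w - a • w)^[k] Z,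
    sub_mem hZ fun γ hγ => by rw [AddMonoidHom.smul_apply, hpar k γ hγ, smul_zero], ?_⟩
  have h := (hFn k).symm.trans hnil
  rw [← hv] at h
  rw [map_sub, show degH 1 one_pos h0 (((v⁻¹ : Rˣ) : R) •
      (fun w => transferHom hg₀ w - a • w)^[k] Z) = ((v⁻¹ : Rˣ) : R) •
      degH 1 one_pos h0 ((fun w => transferHom hg₀ w - a • w)^[k] Z) from
    (Raised.isFam_deg one_pos h0).trans_comp_coeff (DistribSMul.toAddMonoidHom A _) _,
    eq_neg_of_add_eq_zero_right h, smul_neg, smul_smul, Units.inv_mul, one_smul, hd]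
  abel

end Fermat.Agent.R59.Raise
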