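import Fermat.Prelude.Def_ModularForm_HeckeOperator
import Mathlib

/-!
S59, unit C2: the eigenvalue of `T_q` on a cusp form of weight two is smaller than `q + 1`.

The invariant function `‖f τ‖ * im τ` attains a maximum `M`; each of the `q + 1` terms of `T_q f` at
a maximum is at most `M / im τ`, so an eigenvalue of size `q + 1` would make every `q ^ n • τ` a
maximum, against the decay at infinity.
-/

set_option autoImplicit false
set_option linter.unusedSectionVars false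

noncomputable section

namespace Fermat.Agent.R59.Raise

open UpperHalfPlane Matrix.SpecialLinearGroup Filter Topology
open scoped Modular MatrixGroups ModularForm Pointwise

variable {Γ : Subgroup (GL (Fin 2) ℝ)} [Γ.IsArithmetic] (f : CuspForm Γ 2)

/-- The invariant size of a form. -/
def sizeFn (τ : ℍ) : ℝ := ‖petersson 2 f f τ‖

theorem sizeFn_eq (τ : ℍ) : sizeFn f τ = (‖f τ‖ * τ.im) ^ 2 := by
  rw [sizeFn, petersson, norm_mul, norm_mul, Complex.norm_conj, mul_pow, ← pow_two, norm_zpow,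
    Complex.norm_real, Real.norm_of_nonneg τ.im_pos.le]
  norm_cast

theorem sizeFn_continuous : Continuous (sizeFn f) := by
  unfold sizeFn
  fun_prop

theorem sizeFn_decay (g : SL(2, ℤ)) : IsZeroAtImInfty fun τ : ℍ => sizeFn f (g • τ) := by
  rw [IsZeroAtImInfty, ZeroAtFilter]
  simp only [sizeFn]
  rw [← tendsto_zero_iff_norm_tendsto_zero]
  simp_rw [← UpperHalfPlane.petersson_slash_SL]
  have : ((ConjAct.toConjAct (g : GL (Fin 2) ℝ)⁻¹) • Γ).IsArithmetic := by
    simpa [(show Rat.castHom ℝ = algebraMap ℚ ℝ by rfl), map_inv, Matrix.SpecialLinearGroup.map_mapGL]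
      using! Subgroup.IsArithmetic.conj Γ (mapGL ℚ g)⁻¹
  exact (CuspFormClass.zero_at_infty <| CuspForm.translate f g).petersson_isZeroAtImInfty_left 2 _
    (ModularForm.translate f g)

theorem sizeFn_attains (h0 : ∃ τ, f τ ≠ 0) :
    ∃ τ₀, f τ₀ ≠ 0 ∧ ∀ τ, ‖f τ‖ * τ.im ≤ ‖f τ₀‖ * τ₀.im := by
  classical
  obtain ⟨τ₁, hτ₁⟩ := h0
  have hpos : 0 < sizeFn f τ₁ := by
    rw [sizeFn_eq]
    have := τ₁.im_pos
    positivity
  let Γ' : Subgroup SL(2, ℤ) := Γ.comap (mapGL ℝ)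
  haveI : Γ'.FiniteIndex := Subgroup.IsArithmetic.finiteIndex_comap Γ
  haveI : Fintype (SL(2, ℤ) ⧸ Γ') := Subgroup.fintypeQuotientOfFiniteIndex
  let F : SL(2, ℤ) ⧸ Γ' → ℍ → ℝ := fun c z => sizeFn f ((c.out)⁻¹ • z)
  let H : ℍ → ℝ := fun z => Finset.univ.sup' Finset.univ_nonempty fun c => F c z
  have hHc : Continuous H := Continuous.finset_sup'_apply _ fun c _ =>
    (sizeFn_continuous f).comp (by show Continuous fun z : ℍ => ((c.out⁻¹ : SL(2, ℤ)) : GL (Fin 2) ℝ) • z; fun_prop)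
  have hmove : ∀ τ, ∃ z ∈ 𝒟, sizeFn f τ ≤ H z ∧ ∀ c, F c z ≤ H z := fun τ => by
    obtain ⟨g, hg⟩ := ModularGroup.exists_smul_mem_fd τ
    refine ⟨g • τ, hg, ?_, fun c => Finset.le_sup' (fun c => F c (g • τ)) (Finset.mem_univ c)⟩
    refine le_trans (le_of_eq ?_) (Finset.le_sup' (fun c => F c (g • τ)) (Finset.mem_univ
      (QuotientGroup.mk g : SL(2, ℤ) ⧸ Γ')))
    obtain ⟨k, hk⟩ := QuotientGroup.mk_out_eq_mul Γ' g
    show sizeFn f τ = sizeFn f ((QuotientGroup.mk g : SL(2, ℤ) ⧸ Γ').out⁻¹ • g • τ)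
    rw [hk, mul_inv_rev, mul_smul, inv_smul_smul]
    exact (SlashInvariantFormClass.norm_petersson_smul (f := f) (f' := f)
      (Γ := Γ) (g := mapGL ℝ ((k : SL(2, ℤ))⁻¹)) (inv_mem k.2)).symm
  have hev : ∀ᶠ z in atImInfty, ∀ c, F c z < sizeFn f τ₁ :=
    eventually_all.mpr fun c => (sizeFn_decay f (c.out)⁻¹).eventually_lt_const hpos
  rw [atImInfty, eventually_comap, eventually_atTop] at hev
  obtain ⟨y, hy⟩ := hev
  have hlow : ∀ z, sizeFn f τ₁ ≤ H z → z.im ≤ y := fun z hz => by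
    by_contra h
    obtain ⟨c, -, hc⟩ := Finset.exists_mem_eq_sup' Finset.univ_nonempty fun c => F c z
    exact absurd ((hz.trans_eq hc).trans_lt (hy _ (not_le.mp h).le z rfl c)) (lt_irrefl _)
  obtain ⟨z₁, hz₁, hle₁, -⟩ := hmove τ₁
  obtain ⟨z₀, hz₀, hmax⟩ := (ModularGroup.isCompact_truncatedFundamentalDomain y).exists_isMaxOn
    ⟨z₁, hz₁, hlow z₁ hle₁⟩ hHc.continuousOn
  obtain ⟨c₀, -, hc₀⟩ := Finset.exists_mem_eq_sup' Finset.univ_nonempty fun c => F c z₀
  refine ⟨c₀.out⁻¹ • z₀, fun hf0 => ?_, fun τ => ?_⟩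
  · have h1 : sizeFn f τ₁ ≤ H z₀ := hle₁.trans (hmax ⟨hz₁, hlow z₁ hle₁⟩)
    rw [show H z₀ = sizeFn f (c₀.out⁻¹ • z₀) from hc₀, sizeFn_eq f (c₀.out⁻¹ • z₀), hf0] at h1
    simp at h1
    linarith
  · have hτ : sizeFn f τ ≤ sizeFn f (c₀.out⁻¹ • z₀) := by
      rw [← show H z₀ = sizeFn f (c₀.out⁻¹ • z₀) from hc₀]
      obtain ⟨z, hz, hle, -⟩ := hmove τ
      by_cases h : sizeFn f τ₁ ≤ H z
      · exact hle.trans (hmax ⟨hz, hlow z h⟩)
      · exact hle.trans ((le_of_not_ge h).trans (hle₁.trans (hmax ⟨hz₁, hlow z₁ hle₁⟩)))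
    rw [sizeFn_eq, sizeFn_eq] at hτ
    exact (pow_le_pow_iff_left₀ (by positivity) (by positivity) two_ne_zero).mp hτ

/-- An eigenvalue of `T_q` in weight two is smaller than `q + 1`. -/
theorem norm_eigenvalue_lt {q : ℕ} (hq : 2 ≤ q) (h0 : ∃ τ, f τ ≠ 0) {lam : ℂ}
    (heig : ModularForm.heckeT 2 q ⇑f = lam • ⇑f) : ‖lam‖ < q + 1 := by
  obtain ⟨τ₀, hne, hmax⟩ := sizeFn_attains f h0
  set M := ‖f τ₀‖ * τ₀.im
  have hM : 0 < M := mul_pos (norm_pos_iff.mpr hne) τ₀.im_pos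
  have hq0 : q ≠ 0 := by omega
  have hq' : (0 : ℝ) < q := by exact_mod_cast Nat.pos_of_ne_zero hq0
  by_contra hlt
  rw [not_lt] at hlt
  have hterm : ∀ (τ : ℍ), ‖f τ‖ ≤ M / τ.im := fun τ => (le_div_iff₀ τ.im_pos).mpr (hmax τ)
  have hstep : ∀ τ : ℍ, ‖f τ‖ * τ.im = M →
      ‖f (ModularForm.heckeDiagMatrix q • τ)‖ * (ModularForm.heckeDiagMatrix q • τ).im = M := by
    intro τ hτ
    set τ' := ModularForm.heckeDiagMatrix q • τ with hτ'
    have him : τ'.im = q * τ.im := by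
      have := congrArg Complex.im (ModularForm.coe_heckeDiagMatrix_smul hq0 τ)
      simpa using this
    have him' : ∀ j : ℕ, (ModularForm.heckeMatrix q j • τ).im = τ.im / q := fun j => by
      have := congrArg Complex.im (ModularForm.coe_heckeMatrix_smul hq0 j τ)
      simpa using this
    have hsum : ‖∑ j ∈ Finset.range q, f (ModularForm.heckeMatrix q j • τ)‖ ≤
        q * (M / (τ.im / q)) := by
      refine (norm_sum_le _ _).trans ((Finset.sum_le_sum fun j _ => hterm _).trans (le_of_eq ?_))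
      simp [him']
    have h1 : ‖lam‖ * ‖f τ‖ ≤ (q : ℝ)⁻¹ * (q * (M / (τ.im / q))) + q * ‖f τ'‖ := by
      have e := congrFun heig τ
      rw [ModularForm.heckeT_apply 2 hq0, Pi.smul_apply, smul_eq_mul] at e
      rw [← norm_mul, ← e]
      refine (norm_add_le _ _).trans (add_le_add ?_ ?_)
      · rw [norm_mul, norm_inv, Complex.norm_natCast]
        exact mul_le_mul_of_nonneg_left hsum (by positivity)
      · rw [norm_mul, show (2 : ℤ) - 1 = 1 from rfl, zpow_one, Complex.norm_natCast]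
    have hf : ‖f τ‖ = M / τ.im := by rw [← hτ, mul_div_cancel_right₀ _ τ.im_ne_zero]
    rw [hf] at h1
    refine le_antisymm (hmax τ') ?_
    have hpos := τ.im_pos
    have h2 : ((q : ℝ) + 1) * (M / τ.im) ≤
        (q : ℝ)⁻¹ * (q * (M / (τ.im / q))) + q * ‖f τ'‖ :=
      le_trans (mul_le_mul_of_nonneg_right hlt (by positivity)) h1
    have h3 : (q : ℝ)⁻¹ * (q * (M / (τ.im / q))) = q * (M / τ.im) := by field_simp
    rw [h3] at h2
    have h4 : M / τ.im ≤ q * ‖f τ'‖ := by linarith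
    rw [div_le_iff₀ hpos] at h4
    rw [him]
    linarith
  let seq : ℕ → ℍ := fun n => (ModularForm.heckeDiagMatrix q • ·)^[n] τ₀
  have hseq : ∀ n, ‖f (seq n)‖ * (seq n).im = M ∧ (seq n).im = q ^ n * τ₀.im := fun n => by
    induction n with
    | zero => exact ⟨rfl, by simp [seq]⟩
    | succ n ih =>
      have e : seq (n + 1) = ModularForm.heckeDiagMatrix q • seq n :=
        Function.iterate_succ_apply' _ _ _
      refine ⟨e ▸ hstep _ ih.1, ?_⟩
      have h1 := congrArg Complex.im (ModularForm.coe_heckeDiagMatrix_smul hq0 (seq n))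
      rw [e]
      simp [ih.2, pow_succ] at h1 ⊢
      rw [h1]
      ring
  have htend : Tendsto seq atTop atImInfty := by
    rw [atImInfty, tendsto_comap_iff]
    simp only [Function.comp_def, (hseq _).2]
    exact (tendsto_pow_atTop_atTop_of_one_lt (by exact_mod_cast hq)).atTop_mul_const τ₀.im_pos
  have hz := (sizeFn_decay f 1).comp htend
  have hconst : (fun n => sizeFn f ((1 : SL(2, ℤ)) • seq n)) = fun _ => M ^ 2 := funext fun n => by
    rw [one_smul, sizeFn_eq, (hseq n).1]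
  rw [show (fun τ : ℍ => sizeFn f ((1 : SL(2, ℤ)) • τ)) ∘ seq = _ from hconst] at hz
  have := tendsto_nhds_unique hz tendsto_const_nhds
  exact (pow_pos hM 2).ne' this.symm

end Fermat.Agent.R59.Raise
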