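import Mathlib

/-!
S59, unit C2: extending an invariant homomorphism from the kernel of a surjection, when the target
has a cyclic subgroup of index prime to `p` which some element inverts.

The obstruction at the generator is its own negative modulo `p`, so it vanishes; the transfer from
the preimage of the cyclic subgroup then extends to the whole group.
-/

set_option autoImplicit false
set_option linter.unusedSectionVars false

noncomputable section

namespace Fermat.Agent.R59.Raise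

variable {B G : Type*} [Group B] [Group G] {A : Type*} [AddCommGroup A]

/-- A homomorphism to an additive group from a function. -/
def toHom {H : Type*} [Group H] (f : H → A) (hf : ∀ a b, f (a * b) = f a + f b) :
    H →* Multiplicative A :=
  MonoidHom.mk' (fun a => Multiplicative.ofAdd (f a)) fun a b => congrArg Multiplicative.ofAdd (hf a b)

/-- An invariant homomorphism of the kernel extends to the whole group. -/
theorem exists_extension {p : ℕ} (hp : p.Prime) (hp2 : p ≠ 2) (hA : ∀ a : A, p • a = 0)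
    (π : B →* G) (hπ : Function.Surjective π) {σ w : G} (hσ : IsOfFinOrder σ)
    (hw : w * σ * w⁻¹ = σ⁻¹) (hidx : ¬ p ∣ (Subgroup.zpowers σ).index)
    (φ : π.ker → A) (hφ : ∀ a b, φ (a * b) = φ a + φ b)
    (hinv : ∀ (g : B) (a : π.ker), φ ⟨g * a * g⁻¹, π.normal_ker.conj_mem _ a.2 g⟩ = φ a) :
    ∃ z : B → A, (∀ g h, z (g * h) = z g + z h) ∧ ∀ a : π.ker, z a = φ a := by
  classical
  set m := orderOf σ with hmdef
  have hm : 0 < m := hσ.orderOf_pos
  obtain ⟨s, hs⟩ := hπ σ
  obtain ⟨v, hv⟩ := hπ w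
  have hφ1 : φ 1 = 0 := by simpa using hφ 1 1
  have hφinv : ∀ a, φ a⁻¹ = -φ a := fun a => eq_neg_of_add_eq_zero_right (by
    rw [← hφ, mul_inv_cancel, hφ1])
  have hφpow : ∀ (a : π.ker) (k : ℤ), φ (a ^ k) = k • φ a := fun a k => by
    have := map_zpow (toHom φ hφ) a k
    exact congrArg Multiplicative.toAdd this
  -- the obstruction is a multiple of `m`
  have hsm : s ^ m ∈ π.ker := by rw [MonoidHom.mem_ker, map_pow, hs, pow_orderOf_eq_one]
  obtain ⟨a₀, ha₀⟩ : ∃ a₀ : A, m • a₀ = φ ⟨s ^ m, hsm⟩ := by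
    have hd : s * (v * s * v⁻¹) ∈ π.ker := by
      rw [MonoidHom.mem_ker, map_mul, map_mul, map_mul, map_inv, hs, hv, hw, mul_inv_cancel]
    -- conjugation by `v` on the powers
    have hk : ∀ k : ℕ, ∃ hmem : s ^ k * (v * s * v⁻¹) ^ k ∈ π.ker,
        φ ⟨_, hmem⟩ = k • φ ⟨_, hd⟩ := fun k => by
      induction k with
      | zero =>
        refine ⟨by simp, ?_⟩
        rw [zero_smul, ← hφ1]
        congr 1
        exact Subtype.ext (by simp)
      | succ k ih =>
        obtain ⟨hmem, e⟩ := ih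
        have h1 : s ^ (k + 1) * (v * s * v⁻¹) ^ (k + 1) =
            (s * (s ^ k * (v * s * v⁻¹) ^ k) * s⁻¹) * (s * (v * s * v⁻¹)) := by
          rw [pow_succ', pow_succ (v * s * v⁻¹)]
          group
        refine ⟨h1 ▸ mul_mem (π.normal_ker.conj_mem _ hmem s) hd, ?_⟩
        rw [succ_nsmul, ← e, ← hinv s ⟨_, hmem⟩, ← hφ]
        exact congrArg φ (Subtype.ext h1)
    obtain ⟨hmem, e⟩ := hk m
    have h2 : φ ⟨_, hmem⟩ = φ ⟨s ^ m, hsm⟩ + φ ⟨s ^ m, hsm⟩ := by
      conv_rhs => arg 2; rw [← hinv v ⟨s ^ m, hsm⟩]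
      rw [← hφ]
      exact congrArg φ (Subtype.ext (show s ^ m * (v * s * v⁻¹) ^ m = s ^ m * (v * s ^ m * v⁻¹) by rw [conj_pow]))
    obtain ⟨k, hkp⟩ := (hp.eq_two_or_odd'.resolve_left hp2)
    refine ⟨(k + 1) • φ ⟨_, hd⟩, ?_⟩
    rw [smul_comm, ← e, h2, ← two_nsmul, smul_smul,
      show (k + 1) * 2 = p + 1 by omega, succ_nsmul, hA, zero_add]
  -- the homomorphism on the preimage
  set C : Subgroup B := (Subgroup.zpowers σ).comap π
  have hrep : ∀ c : C, ∃ i : ℤ, s ^ (-i) * (c : B) ∈ π.ker := fun c => by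
    obtain ⟨i, hi⟩ := Subgroup.mem_zpowers_iff.mp c.2
    refine ⟨i, ?_⟩
    rw [MonoidHom.mem_ker, map_mul, map_zpow, hs, ← hi, ← zpow_add, neg_add_cancel, zpow_zero]
  choose ind hind using hrep
  have hwd : ∀ (c : C) (i : ℤ) (hi : s ^ (-i) * (c : B) ∈ π.ker),
      ind c • a₀ + φ ⟨_, hind c⟩ = i • a₀ + φ ⟨_, hi⟩ := fun c i hi => by
    have hπc : ∀ j : ℤ, s ^ (-j) * (c : B) ∈ π.ker → π c = σ ^ j := fun j hj => by
      rw [MonoidHom.mem_ker, map_mul, map_zpow, hs, zpow_neg, inv_mul_eq_one] at hj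
      exact hj.symm
    obtain ⟨k, hk⟩ : (m : ℤ) ∣ ind c - i := (zpow_eq_zpow_iff_modEq.mp
      ((hπc i hi).symm.trans (hπc _ (hind c)))).dvd
    have e : (⟨_, hi⟩ : π.ker) = (⟨s ^ m, hsm⟩ : π.ker) ^ k * ⟨_, hind c⟩ := Subtype.ext (by
      show s ^ (-i) * (c : B) = (s ^ m) ^ k * (s ^ (-ind c) * (c : B))
      rw [← zpow_natCast, ← zpow_mul, ← mul_assoc, ← zpow_add, ← hk]
      congr 2
      ring)
    rw [e, hφ, hφpow, ← ha₀, ← natCast_zsmul a₀ m, smul_smul, ← add_assoc, ← add_smul]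
    congr 2
    linear_combination hk
  let ψ : C → A := fun c => ind c • a₀ + φ ⟨_, hind c⟩
  have hψ : ∀ c d : C, ψ (c * d) = ψ c + ψ d := fun c d => by
    have hmem : s ^ (-(ind c + ind d)) * ((c * d : C) : B) ∈ π.ker := by
      have := mul_mem (π.normal_ker.conj_mem _ (hind c) (s ^ (-ind d))) (hind d)
      convert this using 1
      rw [Subgroup.coe_mul]
      group
    show ind (c * d) • a₀ + φ ⟨_, hind (c * d)⟩ = _
    rw [hwd (c * d) _ hmem, add_smul]
    have e : (⟨_, hmem⟩ : π.ker) =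
        ⟨_, π.normal_ker.conj_mem _ (hind c) (s ^ (-ind d))⟩ * ⟨_, hind d⟩ := Subtype.ext (by
      show s ^ (-(ind c + ind d)) * ((c : B) * (d : B)) =
        s ^ (-ind d) * (s ^ (-ind c) * (c : B)) * (s ^ (-ind d))⁻¹ * (s ^ (-ind d) * (d : B))
      group)
    rw [e, hφ, hinv (s ^ (-ind d)) ⟨_, hind c⟩]
    show _ = (ind c • a₀ + φ _) + (ind d • a₀ + φ _)
    abel
  have hker : π.ker ≤ C := fun a ha => by
    show π a ∈ Subgroup.zpowers σ
    rw [MonoidHom.mem_ker.mp ha]
    exact one_mem _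
  have hψφ : ∀ (a : B) (ha : a ∈ π.ker), ψ ⟨a, hker ha⟩ = φ ⟨a, ha⟩ := fun a ha => by
    rw [show ψ _ = _ from hwd ⟨a, hker ha⟩ 0 (by simpa using ha), zero_smul, zero_add]
    exact congrArg φ (Subtype.ext (by simp))
  -- transfer to the whole group
  have hCidx : C.index = (Subgroup.zpowers σ).index := Subgroup.index_comap_of_surjective _ hπ
  haveI : C.FiniteIndex := ⟨fun h => hidx (hCidx ▸ h ▸ dvd_zero p)⟩
  let T : B →* Multiplicative A := MonoidHom.transfer (toHom ψ hψ)
  have hT : ∀ (a : B) (ha : a ∈ π.ker), Multiplicative.toAdd (T a) = C.index • φ ⟨a, ha⟩ := by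
    intro a ha
    let S : C.LeftTransversal := default
    rw [show T a = _ from MonoidHom.transfer_def (toHom ψ hψ) S a, Subgroup.leftTransversals.diff]
    simp only [toAdd_prod]
    letI := C.fintypeQuotientOfFiniteIndex
    rw [C.index_eq_card, Nat.card_eq_fintype_card, ← Finset.card_univ, ← Finset.sum_const]
    refine Finset.sum_congr rfl fun c _ => ?_
    set α := (S.2.leftQuotientEquiv c : B)
    have hfix : a⁻¹ • c = c := by
      have hc : c = (α : B ⧸ C) := (Subgroup.IsComplement.quotientGroupMk_leftQuotientEquiv S.2 c).symm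
      rw [hc]
      exact QuotientGroup.eq.mpr (by
        simpa [mul_assoc] using! hker (π.normal_ker.conj_mem _ ha α⁻¹))
    have hβ : ((a • S).2.leftQuotientEquiv c : B) = a * α := by
      rw [Subgroup.smul_apply_eq_smul_apply_inv_smul, hfix]
      rfl
    have hmem : α⁻¹ * a * α ∈ π.ker := by simpa using! π.normal_ker.conj_mem _ ha α⁻¹
    show ψ ⟨α⁻¹ * ((a • S).2.leftQuotientEquiv c : B), _⟩ = φ ⟨a, ha⟩
    simp only [hβ, ← mul_assoc]
    rw [hψφ _ hmem, ← hinv α⁻¹ ⟨a, ha⟩]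
    exact congrArg φ (Subtype.ext (by simp))
  obtain ⟨u, hu⟩ : ∃ u : ℕ, ∀ x : A, u • C.index • x = x := by
    haveI := Fact.mk hp
    refine ⟨((C.index : ZMod p)⁻¹).val, fun x => ?_⟩
    have h1 : ((((C.index : ZMod p)⁻¹).val * C.index : ℕ) : ZMod p) = ((1 : ℕ) : ZMod p) := by
      rw [Nat.cast_mul, ZMod.natCast_zmod_val, Nat.cast_one, inv_mul_cancel₀]
      rwa [ne_eq, ZMod.natCast_eq_zero_iff, hCidx]
    have hred : ∀ n : ℕ, n • x = (n % p) • x := fun n => by
      conv_lhs => rw [← Nat.mod_add_div n p, add_smul, mul_smul, hA, add_zero]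
    rw [smul_smul, hred, (ZMod.natCast_eq_natCast_iff' _ _ p).mp h1, ← hred, one_smul]
  exact ⟨fun g => u • Multiplicative.toAdd (T g),
    fun g h => by simp only [map_mul, toAdd_mul, smul_add],
    fun a => by simp only [hT a a.2]; exact hu _⟩

end Fermat.Agent.R59.Raise
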