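import Fermat.Agent.Raise.Vanish

/-!
S59, unit C2: the vanishing theorem for Ihara's lemma with eigenvalues in a ring of scalars
(`Raise/Vanish` with `ℤ` replaced by `R`).
-/

set_option autoImplicit false
set_option linter.unusedSectionVars false

noncomputable section

namespace Fermat.Agent.R59.Raise

open CongruenceSubgroup Fermat.Agent.Raise
open Fermat.Agent.GalRep (GoodIndex heckeRep trCoef trIdx trSpec gMat tr_unique exists_transfer_step)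
open scoped MatrixGroups

/-- A family of elements scaled by the torus, parabolic at integral parameters: no torsion
condition on the values is needed. -/
theorem family_eq_zero_torus {q N : ℕ} [Fact q.Prime] {F : Type} [AddCommGroup F] {φ : SLQ → F}
    (hadd : IsLevHom q N φ)
    (hpar : ∀ γ ∈ Gamma0 N,
      ((γ : SL(2, ℤ)) : Matrix (Fin 2) (Fin 2) ℤ).trace ^ 2 = 4 → φ (toQ γ) = 0)
    {P : ℚ → SLQ} (hP : ∀ s ∈ qInt q, P s ∈ gLev q N)
    (hint : ∀ z : ℤ, ∃ γ ∈ Gamma0 N, toQ γ = P z ∧ γ 0 0 + γ 1 1 = 2)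
    {H : SLQ} (hH : H ∈ gLev q N) {K : ℕ} (hK : 0 < K)
    (hconj : ∀ s, H * P s * H⁻¹ = P ((q : ℚ) ^ (2 * K) * s)) {s : ℚ} (hs : s ∈ qInt q) :
    φ (P s) = 0 := by
  have hiter : ∀ j : ℕ, φ (P s) = φ (P ((q : ℚ) ^ (2 * K * j) * s)) := by
    intro j
    induction j with
    | zero => simp
    | succ j ih =>
      have hm : ((q : ℚ) ^ (2 * K * j) * s) ∈ qInt q :=
        mul_mem (pow_mem (natCast_mem_qInt q q) _) hs
      rw [ih, ← IsLevHom.map_conj hadd (hP _ hm) hH, hconj]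
      congr 2
      ring
  obtain ⟨n, z, hz⟩ := id hs
  have hle : n ≤ 2 * K * n := Nat.le_mul_of_pos_left n (by omega)
  have hz' : (q : ℚ) ^ (2 * K * n) * s = ((z * (q : ℤ) ^ (2 * K * n - n) : ℤ) : ℚ) := by
    push_cast
    rw [← hz, mul_assoc s, ← pow_add, show n + (2 * K * n - n) = 2 * K * n by omega, mul_comm]
  obtain ⟨γ, hγ, e, htr⟩ := hint (z * (q : ℤ) ^ (2 * K * n - n))
  rw [hiter n, hz', ← e]
  exact hpar γ hγ (by rw [Matrix.trace_fin_two, htr]; norm_num)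

theorem levHom_eq_zero_scalar {q N : ℕ} [Fact q.Prime] [NeZero N] {F : Type} [AddCommGroup F]
    {R : Type} [CommRing R] [Module R F]
    {φ : SLQ → F} (hqN : ¬ q ∣ N) (hadd : IsLevHom q N φ)
    (hpar : ∀ γ ∈ Gamma0 N,
      ((γ : SL(2, ℤ)) : Matrix (Fin 2) (Fin 2) ℤ).trace ^ 2 = 4 → φ (toQ γ) = 0)
    {ℓ : ℕ} (hg : GoodIndex N ℓ) (hℓq : ℓ ≠ q)
    (hℓbad : ¬ (ℓ : ℤ) ∣ (q : ℤ) ^ (4 * N ^ 2) - 1) {a : R}
    (heig : ∀ γ : Gamma0 N,
      ∑ i, φ (toQ (trCoef hg γ i : SL(2, ℤ))) = a • φ (toQ (γ : SL(2, ℤ))))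
    (hne : ∀ v : F, (a ^ 2 - ((ℓ : R) + 1) ^ 2) • v = 0 → v = 0)
    {m : ℕ} (hgB : GoodIndex N m) (hB1 : (N : ℤ) ∣ (m : ℤ) - 1) {b : R}
    (heigB : ∀ γ : Gamma0 N,
      ∑ i, φ (toQ (trCoef hgB γ i : SL(2, ℤ))) = b • φ (toQ (γ : SL(2, ℤ))))
    (hneB : ∀ v : F, (b - ((m : R) + 1)) • v = 0 → v = 0) :
    ∀ γ ∈ Gamma0 N, φ (toQ γ) = 0 := by
  classical
  have hℓ := hg.prime
  haveI := Fact.mk hℓ
  have hℓ0 : (ℓ : ℚ) ≠ 0 := Nat.cast_ne_zero.mpr hℓ.ne_zero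
  set D := dConj (Units.mk0 (ℓ : ℚ) hℓ0)
  set M := N * ℓ with hMdef
  have hM0 : M ≠ 0 := mul_ne_zero (NeZero.ne N) hℓ.ne_zero
  have hqM : ¬ q ∣ M := fun h => ((Fact.out : q.Prime).dvd_mul.mp h).elim hqN fun h =>
    hℓq ((Nat.prime_dvd_prime_iff_eq Fact.out hℓ).mp h).symm
  have hcop : IsCoprime (ℓ : ℤ) (N : ℤ) :=
    Nat.isCoprime_iff_coprime.mpr (hℓ.coprime_iff_not_dvd.mpr hg.not_dvd)
  set ψ : SLQ → F := fun g => φ (D g) with hψ
  have hψadd : ∀ g ∈ gLev q M, ∀ h ∈ gLev q M, ψ (g * h) = ψ g + ψ h := fun g hg' h hh => by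
    rw [hψ]
    simp only [map_mul]
    exact hadd _ (dConj_mem hℓ0 hg') _ (dConj_mem hℓ0 hh)
  have hlQ : ∀ z : ℤ, lQ ((N : ℚ) * z) ∈ gLev q 1 := fun z =>
    gLev_mono (one_dvd N) (lQ_mem (intCast_mem_qInt q z))
  -- conjugates by lower unipotents
  set C : ℤ → SLQ → SLQ := fun w g => lQ ((N : ℚ) * w) * g * lQ (-((N : ℚ) * w)) with hCdef
  have hC : ∀ w g, C w g = lQ ((N : ℚ) * w) * g * (lQ ((N : ℚ) * w))⁻¹ := fun w g => by
    rw [lQ_inv]
  have hCmem : ∀ w {g : SLQ}, g ∈ gPrin q M → C w g ∈ gPrin q M := fun w g hgm => by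
    rw [hC]; exact conj_mem_gPrin (hlQ w).1 hgm
  have hCadd : ∀ w, ∀ g ∈ gPrin q M, ∀ h ∈ gPrin q M,
      ψ (C w (g * h)) = ψ (C w g) + ψ (C w h) := fun w g hgm h hhm => by
    rw [← hψadd _ (gPrin_le_gLev (hCmem w hgm)) _ (gPrin_le_gLev (hCmem w hhm))]
    congr 1
    rw [hC, hC, hC]
    group
  obtain ⟨K, hK, hKM⟩ : ∃ K : ℕ, 0 < K ∧ (M : ℤ) ∣ (q : ℤ) ^ K - 1 := by
    refine ⟨M.totient, Nat.totient_pos.mpr (Nat.pos_of_ne_zero hM0), ?_⟩
    have h := Nat.ModEq.pow_totient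
      (((Fact.out : q.Prime).coprime_iff_not_dvd.mpr hqM))
    have := (Nat.modEq_iff_dvd.mp h.symm)
    push_cast at this
    exact this
  have hQm : ∀ e : ℤ, e = K ∨ e = -(K : ℤ) → hQ (qU q ^ e) ∈ gPrin q M := by
    obtain ⟨t, ht⟩ := hKM
    have hq0 : (q : ℚ) ≠ 0 := Nat.cast_ne_zero.mpr (Fact.out : q.Prime).ne_zero
    have ht' : (q : ℚ) ^ K = 1 + (M : ℚ) * t := by
      have := congrArg (fun z : ℤ => (z : ℚ)) ht
      push_cast at this
      linear_combination this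
    have hi : ((q : ℚ) ^ K)⁻¹ = 1 + (M : ℚ) * (-(t : ℚ) * ((q : ℚ) ^ K)⁻¹) := by
      field_simp
      linear_combination -ht'
    have hmem : -(t : ℚ) * ((q : ℚ) ^ K)⁻¹ ∈ qInt q := by
      rw [← zpow_natCast, ← zpow_neg]
      exact mul_mem (neg_mem (intCast_mem_qInt q t))
        (zpow_mem_qInt (Fact.out : q.Prime).ne_zero _)
    intro e he i j
    rcases he with rfl | rfl <;> fin_cases i <;> fin_cases j <;>
      simp only [Fin.zero_eta, Fin.mk_one, Fin.isValue, hQ_00, hQ_01, hQ_10, hQ_11, qU_zpow,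
        Matrix.one_apply_eq, ne_eq, zero_ne_one, one_ne_zero,
        not_false_eq_true, Matrix.one_apply_ne]
    all_goals try simp only [zpow_neg, zpow_natCast, inv_inv]
    all_goals first
      | exact ⟨t, intCast_mem_qInt q t, ht'⟩
      | exact ⟨_, hmem, hi⟩
      | exact ⟨0, zero_mem _, by simp⟩
  have hconjC : ∀ (w : ℤ) (g h : SLQ),
      D (C w g) * D (C w h) * (D (C w g))⁻¹ = D (C w (g * h * g⁻¹)) := fun w g h => by
    rw [← map_inv, ← map_mul, ← map_mul, hC, hC, hC]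
    congr 1
    group
  have hCx : ∀ w : ℤ, ∀ s ∈ qInt q, ψ (C w (xQ ((M : ℚ) * s))) = 0 := fun w s hs => by
    refine family_eq_zero_torus hadd hpar (P := fun s => D (C w (xQ ((M : ℚ) * s))))
      (fun t ht => dConj_mem hℓ0 (gPrin_le_gLev (hCmem w (xQ_mem_gPrin ht)))) (fun z => ?_)
      (dConj_mem hℓ0 (gPrin_le_gLev (hCmem w (hQm _ (Or.inr rfl))))) hK (fun t => ?_) hs
    rotate_left
    · show D (C w _) * D (C w _) * (D (C w _))⁻¹ = D (C w _)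
      rw [hconjC, hQ_xQ, mul_inv_cancel_right, qU_zpow, zpow_neg, zpow_natCast]
      congr 3
      rw [inv_pow, div_inv_eq_mul, ← pow_mul]
      ring
    refine ⟨mkSL (1 - (N : ℤ) ^ 2 * ℓ * w * z) ((N : ℤ) * ℓ ^ 2 * z)
      (-((N : ℤ) ^ 3 * w ^ 2 * z)) (1 + (N : ℤ) ^ 2 * ℓ * w * z) (by ring),
      mem_gamma0_iff_dvd.mpr ?_, ?_, ?_⟩
    · rw [mkSL_10]
      exact dvd_neg.mpr ((dvd_pow_self (N : ℤ) three_ne_zero).mul_right _ |>.mul_right _)
    · refine ext_two ?_ ?_ ?_ ?_ <;> rw [toQ_apply] <;> simp [D, hCdef, mul_apply_two, hMdef]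
      all_goals (try field_simp)
      all_goals (try ring)
    · simp
  have hCl : ∀ w : ℤ, ∀ s ∈ qInt q, ψ (C w (lQ ((M : ℚ) * s))) = 0 := fun w s hs => by
    refine family_eq_zero_torus hadd hpar (P := fun s => D (C w (lQ ((M : ℚ) * s))))
      (fun t ht => dConj_mem hℓ0 (gPrin_le_gLev (hCmem w (lQ_mem_gPrin ht)))) (fun z => ?_)
      (dConj_mem hℓ0 (gPrin_le_gLev (hCmem w (hQm _ (Or.inl rfl))))) hK (fun t => ?_) hs
    rotate_left
    · show D (C w _) * D (C w _) * (D (C w _))⁻¹ = D (C w _)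
      rw [hconjC, hQ_lQ, mul_inv_cancel_right, qU_zpow, zpow_natCast]
      congr 3
      rw [← pow_mul]
      ring
    refine ⟨lZ (N * z), lZ_mem (dvd_mul_right _ _), ?_, by simp⟩
    rw [toQ_lZ]
    refine ext_two ?_ ?_ ?_ ?_ <;> simp [D, hCdef, mul_apply_two, hMdef]
    field_simp
    ring
  -- invariance under the torus, then under a lower unipotent
  set e : ℕ := 2 * M ^ 2 with he
  have hC0 : ∀ g, C 0 g = g := fun g => by simp [hCdef, lQ_zero]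
  have htor : ∀ w : ℤ, ∀ g ∈ gPrin q M, ψ (C w (hConj q e g)) = ψ (C w g) := fun w g hgm =>
    torus_invariant (ψ := fun g => ψ (C w g)) hM0 hqM (hCadd w) (hCx w) (hCl w) hgm
  set lam : ℤ := (q : ℤ) ^ (2 * e) with hlam
  have hinv : ∀ g ∈ gPrin q M, ψ (C (lam - 1) g) = ψ g := by
    intro g hgm
    set g' := C (-1) g with hg'
    have h1 : C 1 g' = g := by
      rw [hg', hC, hC, Int.cast_neg, mul_neg, ← lQ_inv, Int.cast_one]
      group
    have hm : g' ∈ gPrin q M := hCmem _ hgm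
    have h2 : C (lam - 1) g = C lam g' := by
      rw [hg', hC, hC, hC]
      simp only [lQ_inv, ← mul_assoc, lQ_mul]
      rw [mul_assoc _ (lQ _) (lQ _), lQ_mul]
      congr 3 <;> push_cast <;> ring
    have h3 : hConj q e (C 1 g') = C lam (hConj q e g') := by
      rw [hC, hC, hConj_mul, hConj_mul, hConj_lQ, lQ_inv, hConj_lQ, lQ_inv, zpow_natCast]
      congr 3 <;> · rw [hlam]; push_cast; ring
    rw [h2, ← htor lam g' hm, ← h3]
    have := htor 0 (C 1 g') (hCmem 1 hm)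
    rw [hC0, hC0] at this
    rw [this, h1]
  -- invariance under all of `Γ₀(N)`
  let Inv : Subgroup SL(2, ℤ) :=
    { carrier := {γ | γ ∈ Gamma0 N ∧ ∀ g ∈ gPrin q M, ψ (toQ γ * g * (toQ γ)⁻¹) = ψ g}
      one_mem' := ⟨one_mem _, fun g _ => by simp⟩
      mul_mem' := fun {a b} ha hb => ⟨mul_mem ha.1 hb.1, fun g hgm => by
        have := ha.2 (toQ b * g * (toQ b)⁻¹)
          (conj_mem_gPrin (toQ_mem (q := q) hb.1).1 hgm)
        rw [← hb.2 g hgm, ← this, map_mul]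
        congr 1
        group⟩
      inv_mem' := fun {a} ha => ⟨inv_mem ha.1, fun g hgm => by
        have := ha.2 (toQ a⁻¹ * g * (toQ a⁻¹)⁻¹)
          (conj_mem_gPrin (toQ_mem (q := q) (inv_mem ha.1)).1 hgm)
        rw [map_inv] at this ⊢
        rw [← this]
        congr 1
        group⟩ }
  have hInvℓ : ∀ γ ∈ Gamma0 M, γ ∈ Inv := fun γ hγ =>
    ⟨mem_gamma0_iff_dvd.mpr ((Int.natCast_dvd_natCast.mpr (dvd_mul_right N ℓ)).trans
      (mem_gamma0_iff_dvd.mp hγ)), fun g hgm =>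
      IsLevHom.map_conj (φ := ψ) hψadd (gPrin_le_gLev hgm) (toQ_mem hγ)⟩
  have hlam1 : ¬ (ℓ : ℤ) ∣ lam - 1 := by
    rw [← ZMod.intCast_zmod_eq_zero_iff_dvd] at hℓbad ⊢
    rw [hlam, he, hMdef]
    push_cast at hℓbad ⊢
    rwa [show 2 * (2 * (N * ℓ) ^ 2) = 4 * N ^ 2 * ℓ * ℓ by ring, pow_mul, pow_mul,
      ZMod.pow_card, ZMod.pow_card]
  have hInvN : lZ (N : ℤ) ∈ Inv := by
    obtain ⟨u, v, huv⟩ := ((Nat.prime_iff_prime_int.mp hℓ).coprime_iff_not_dvd.mpr hlam1)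
    have h1 : lZ ((N : ℤ) * (lam - 1)) ∈ Inv := ⟨lZ_mem (dvd_mul_right _ _), fun g hgm => by
      rw [toQ_lZ, Int.cast_mul, Int.cast_natCast, ← hC]
      exact hinv g hgm⟩
    have h2 : lZ ((M : ℕ) : ℤ) ∈ Inv := hInvℓ _ (lZ_mem dvd_rfl)
    have e1 : lZ (N : ℤ) = lZ ((N : ℤ) * (lam - 1)) ^ v * lZ ((M : ℕ) : ℤ) ^ u := by
      rw [lZ_zpow, lZ_zpow, lZ_mul]
      refine Matrix.SpecialLinearGroup.ext _ _ fun i j => ?_
      fin_cases i <;> fin_cases j <;> simp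
      rw [hMdef]; push_cast
      linear_combination -(N : ℤ) * huv
    rw [e1]
    exact mul_mem (zpow_mem h1 v) (zpow_mem h2 u)
  have hInv : ∀ γ ∈ Gamma0 N, γ ∈ Inv := by
    have hT : ∀ n : ℤ, ModularGroup.T ^ n ∈ Inv := fun n => hInvℓ _ (mem_gamma0_iff_dvd.mpr (by
      simp [ModularGroup.coe_T_zpow]))
    have main : ∀ γ ∈ Gamma0 N, ¬ (ℓ : ℤ) ∣ γ 1 1 → γ ∈ Inv := by
      intro γ hγ hd
      obtain ⟨c₀, hc₀⟩ := mem_gamma0_iff_dvd.mp hγ
      obtain ⟨u, v, huv⟩ := (Nat.prime_iff_prime_int.mp hℓ).coprime_iff_not_dvd.mpr hd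
      have hm : γ * lZ (N : ℤ) ^ (-(c₀ * v)) ∈ Inv := hInvℓ _ (mem_gamma0_iff_dvd.mpr ?_)
      · simpa using mul_mem hm (zpow_mem hInvN (c₀ * v))
      · rw [lZ_zpow]
        simp [Matrix.mul_apply, Fin.sum_univ_two, hc₀, hMdef]
        exact ⟨c₀ * u, by linear_combination -(c₀ * (N : ℤ)) * huv⟩
    intro γ hγ
    by_cases hd : (ℓ : ℤ) ∣ γ 1 1
    · have := mul_mem (main (γ * ModularGroup.T ^ (1 : ℤ)) (mul_mem hγ (mem_gamma0_iff_dvd.mpr
        (by simp [ModularGroup.coe_T_zpow]))) ?_) (hT (-1))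
      · simpa using this
      · simp [Matrix.mul_apply, Fin.sum_univ_two, ModularGroup.coe_T]
        intro h
        have hc : (ℓ : ℤ) ∣ γ 1 0 := by simpa using dvd_sub h hd
        have hdet := γ.2
        rw [Matrix.det_fin_two] at hdet
        exact (Nat.prime_iff_prime_int.mp hℓ).not_dvd_one
          (hdet ▸ dvd_sub (hd.mul_left _) (hc.mul_left _))
    · exact main γ hγ hd
  -- the Hecke operator on the principal subgroup
  obtain ⟨u₁, v₁, huv₁⟩ := id hcop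
  set h₀ : SL(2, ℤ) := mkSL u₁ (-v₁) (N : ℤ) (ℓ : ℤ) (by linear_combination huv₁) with hh₀
  set u₀ : SL(2, ℤ) := mkSL 1 v₁ (-(N : ℤ)) ((ℓ : ℤ) * u₁) (by linear_combination huv₁) with hu₀
  have hrep : ∀ i : Option (Fin ℓ), ∃ u ∈ Gamma0 N, ∃ h ∈ Gamma0 N,
      heckeRep ℓ i = (u : Matrix (Fin 2) (Fin 2) ℤ) * (!![(ℓ : ℤ), 0; 0, 1] * (h : Matrix (Fin 2) (Fin 2) ℤ)) := by
    intro i
    cases i with
    | none => exact ⟨1, one_mem _, 1, one_mem _, by simp [heckeRep]⟩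
    | some b =>
      refine ⟨u₀, mem_gamma0_iff_dvd.mpr (by simp [hu₀]), h₀ * ModularGroup.T ^ ((b : ℕ) : ℤ),
        mul_mem (mem_gamma0_iff_dvd.mpr (by simp [hh₀]))
          (mem_gamma0_iff_dvd.mpr (by simp [-zpow_natCast, ModularGroup.coe_T_zpow])), ?_⟩
      ext r s
      simp only [Matrix.SpecialLinearGroup.coe_mul, ModularGroup.coe_T_zpow, Matrix.mul_apply,
        Fin.sum_univ_two]
      fin_cases r <;> fin_cases s <;> simp [heckeRep, hu₀, hh₀]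
      · linear_combination -huv₁
      · linear_combination (-(b : ℕ) : ℤ) * huv₁
      · ring
      · linear_combination -(ℓ : ℤ) * huv₁
  have hcoef : ∀ (γ : Gamma0 N), toQ (γ : SL(2, ℤ)) ∈ gPrin q M → ∀ i,
      φ (toQ (trCoef hg γ i : SL(2, ℤ))) = ψ (toQ (γ : SL(2, ℤ))) := by
    intro γ hγ i
    obtain ⟨u, hu, h, hh, hi⟩ := hrep i
    set γ₁ := h * (γ : SL(2, ℤ)) * h⁻¹ with hγ₁
    have hm : toQ γ₁ ∈ gPrin q M := by
      rw [hγ₁, map_mul, map_mul, map_inv]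
      exact conj_mem_gPrin (toQ_mem (q := q) hh).1 hγ
    obtain ⟨c, hc⟩ : (M : ℤ) ∣ γ₁ 1 0 := by
      obtain ⟨t, ⟨n, z, hz⟩, et⟩ := hm 1 0
      simp [toQ_apply] at et
      have hq1 : IsCoprime (M : ℤ) ((q : ℤ) ^ n) :=
        (Nat.isCoprime_iff_coprime.mpr
          ((Fact.out : q.Prime).coprime_iff_not_dvd.mpr hqM).symm).pow_right
      refine hq1.dvd_of_dvd_mul_right ⟨z, ?_⟩
      have : ((γ₁ 1 0 * (q : ℤ) ^ n : ℤ) : ℚ) = (((M : ℤ) * z : ℤ) : ℚ) := by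
        push_cast; rw [et, ← hz]; ring
      exact_mod_cast this
    set γ₂ : SL(2, ℤ) := mkSL (γ₁ 0 0) ((ℓ : ℤ) * γ₁ 0 1) ((N : ℤ) * c) (γ₁ 1 1) (by
      have := γ₁.2
      rw [Matrix.det_fin_two, hc, hMdef] at this
      push_cast at this
      linear_combination this) with hγ₂
    have hγ₂m : γ₂ ∈ Gamma0 N := mem_gamma0_iff_dvd.mpr (by simp [hγ₂])
    have hD : toQ γ₂ = D (toQ γ₁) := by
      refine ext_two ?_ ?_ ?_ ?_ <;> rw [toQ_apply] <;> simp [hγ₂, D, toQ_apply, hc, hMdef]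
      field_simp
    have hgm : u * γ₂ * u⁻¹ ∈ Gamma0 N := mul_mem (mul_mem hu hγ₂m) (inv_mem hu)
    have heq : heckeRep ℓ i * gMat γ = gMat ⟨_, hgm⟩ * heckeRep ℓ i := by
      have e1 : (!![(ℓ : ℤ), 0; 0, 1] : Matrix (Fin 2) (Fin 2) ℤ) * (γ₁ : Matrix (Fin 2) (Fin 2) ℤ) =
          (γ₂ : Matrix (Fin 2) (Fin 2) ℤ) * !![(ℓ : ℤ), 0; 0, 1] := by
        ext r s
        fin_cases r <;> fin_cases s <;>
          simp [hγ₂, Matrix.mul_apply, Fin.sum_univ_two, hc, hMdef] <;> ring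
      show heckeRep ℓ i * ((γ : SL(2, ℤ)) : Matrix (Fin 2) (Fin 2) ℤ) =
        ((u * γ₂ * u⁻¹ : SL(2, ℤ)) : Matrix (Fin 2) (Fin 2) ℤ) * heckeRep ℓ i
      have e2 : (h : Matrix (Fin 2) (Fin 2) ℤ) * ((γ : SL(2, ℤ)) : Matrix (Fin 2) (Fin 2) ℤ) =
          (γ₁ : Matrix (Fin 2) (Fin 2) ℤ) * (h : Matrix (Fin 2) (Fin 2) ℤ) := by
        rw [← Matrix.SpecialLinearGroup.coe_mul, ← Matrix.SpecialLinearGroup.coe_mul, hγ₁,
          inv_mul_cancel_right]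
      have e3 : ((u⁻¹ : SL(2, ℤ)) : Matrix (Fin 2) (Fin 2) ℤ) * (u : Matrix (Fin 2) (Fin 2) ℤ) = 1 := by
        rw [← Matrix.SpecialLinearGroup.coe_mul, inv_mul_cancel, Matrix.SpecialLinearGroup.coe_one]
      rw [hi]
      simp only [Matrix.SpecialLinearGroup.coe_mul, mul_assoc]
      rw [e2, ← mul_assoc _ (γ₁ : Matrix (Fin 2) (Fin 2) ℤ), e1, ← mul_assoc _ (u : Matrix (Fin 2) (Fin 2) ℤ),
        e3, one_mul, mul_assoc]
    rw [(tr_unique hg heq).2]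
    show φ (toQ (u * γ₂ * u⁻¹)) = _
    rw [map_mul, map_mul, map_inv, IsLevHom.map_conj hadd (toQ_mem hγ₂m) (toQ_mem hu), hD]
    show ψ (toQ γ₁) = _
    rw [hγ₁, map_mul, map_mul, map_inv]
    exact (hInv h hh).2 _ hγ
  have hT1 : ∀ γ : Gamma0 N, toQ (γ : SL(2, ℤ)) ∈ gPrin q M →
      a • φ (toQ (γ : SL(2, ℤ))) = ((ℓ : R) + 1) • ψ (toQ (γ : SL(2, ℤ))) := fun γ hγ => by
    rw [← heig γ, Finset.sum_congr rfl fun i _ => hcoef γ hγ i, Finset.sum_const, Finset.card_univ,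
      Fintype.card_option, Fintype.card_fin, ← Nat.cast_smul_eq_nsmul R, Nat.cast_add, Nat.cast_one]
  have hdeep : ∀ γ : SL(2, ℤ), γ ∈ Gamma (N * ℓ ^ 2) → φ (toQ γ) = 0 := by
    intro γ hγ
    obtain ⟨g00, g01, g10, g11⟩ := Gamma_mem.mp hγ
    replace g00 := intCast_eq_one_iff.mp g00
    replace g11 := intCast_eq_one_iff.mp g11
    replace g01 := (ZMod.intCast_zmod_eq_zero_iff_dvd _ _).mp g01
    replace g10 := (ZMod.intCast_zmod_eq_zero_iff_dvd _ _).mp g10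
    have hN2 : ((M : ℕ) : ℤ) ∣ ((N * ℓ ^ 2 : ℕ) : ℤ) := ⟨ℓ, by rw [hMdef]; push_cast; ring⟩
    have hγN : γ ∈ Gamma0 N :=
      mem_gamma0_iff_dvd.mpr ((Int.natCast_dvd_natCast.mpr (dvd_mul_right _ _)).trans g10)
    obtain ⟨b, hb⟩ := g01
    set γ' : SL(2, ℤ) := mkSL (γ 0 0) ((N : ℤ) * ℓ * b) (γ 1 0 * ℓ) (γ 1 1) (by
      have := γ.2
      rw [Matrix.det_fin_two, hb] at this
      push_cast at this
      linear_combination this) with hγ'
    have hγm : toQ γ ∈ gPrin q M := toQ_mem_gPrin (hN2.trans g00) (hN2.trans ⟨b, hb⟩)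
      (hN2.trans g10) (hN2.trans g11)
    have hγ'm : toQ γ' ∈ gPrin q M := toQ_mem_gPrin (by simpa [hγ'] using hN2.trans g00)
      (by simp [hγ', hMdef]) (by simpa [hγ'] using (hN2.trans g10).mul_right _)
      (by simpa [hγ'] using hN2.trans g11)
    have hγ'N : γ' ∈ Gamma0 N :=
      mem_gamma0_iff_dvd.mpr (by simpa [hγ'] using (mem_gamma0_iff_dvd.mp hγN).mul_right _)
    have hD : D (toQ γ') = toQ γ := by
      refine ext_two ?_ ?_ ?_ ?_ <;> simp [D, hγ', toQ_apply, hb]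
      ring
    have h1 := hT1 ⟨γ', hγ'N⟩ hγ'm
    simp only [hψ, hD] at h1
    have h2 : φ (toQ γ') = ψ (toQ γ) := by
      have hu := (tr_unique hg (γ := ⟨γ, hγN⟩) (g := ⟨γ', hγ'N⟩)
        (i := some ⟨0, hℓ.pos⟩) (j := some ⟨0, hℓ.pos⟩) (by
          show heckeRep ℓ _ * (γ : Matrix (Fin 2) (Fin 2) ℤ) =
            (γ' : Matrix (Fin 2) (Fin 2) ℤ) * heckeRep ℓ _
          ext r s
          fin_cases r <;> fin_cases s <;>
            simp [heckeRep, hγ', Matrix.mul_apply, Fin.sum_univ_two, hb] <;> ring)).2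
      have h3 := hcoef ⟨γ, hγN⟩ hγm (some ⟨0, hℓ.pos⟩)
      rwa [hu] at h3
    have h4 := hT1 ⟨γ, hγN⟩ hγm
    refine hne _ ?_
    rw [sub_smul, sub_eq_zero, pow_two, pow_two, mul_smul, mul_smul]
    rw [h4, ← h1, h2, smul_comm]
  -- down to `Γ₁(N)`
  let Ker : Subgroup SL(2, ℤ) :=
    { carrier := {γ | γ ∈ Gamma0 N ∧ φ (toQ γ) = 0}
      one_mem' := ⟨one_mem _, by rw [map_one, IsLevHom.map_one hadd]⟩
      mul_mem' := fun {x y} hx hy => ⟨mul_mem hx.1 hy.1, by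
        rw [map_mul, hadd _ (toQ_mem hx.1) _ (toQ_mem hy.1), hx.2, hy.2, add_zero]⟩
      inv_mem' := fun {x} hx => ⟨inv_mem hx.1, by
        rw [map_inv, IsLevHom.map_inv hadd (toQ_mem hx.1), hx.2, neg_zero]⟩ }
  have hKT : ∀ n : ℤ, ModularGroup.T ^ n ∈ Ker := fun n => by
    have hm : ModularGroup.T ^ n ∈ Gamma0 N :=
      mem_gamma0_iff_dvd.mpr (by simp [ModularGroup.coe_T_zpow])
    exact ⟨hm, hpar _ hm (by simp [ModularGroup.coe_T_zpow, Matrix.trace_fin_two])⟩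
  have hKL : ∀ c : ℤ, lZ ((N : ℤ) * c) ∈ Ker := fun c =>
    ⟨lZ_mem (dvd_mul_right _ _), hpar _ (lZ_mem (dvd_mul_right _ _))
      (by simp [Matrix.trace_fin_two])⟩
  have hpr := Nat.prime_iff_prime_int.mp hℓ
  have hprin : ∀ g : SL(2, ℤ), (N : ℤ) ∣ g 0 0 - 1 → (N : ℤ) ∣ g 0 1 → (N : ℤ) ∣ g 1 0 →
      (N : ℤ) ∣ g 1 1 - 1 → ¬ (ℓ : ℤ) ∣ g 1 0 → g ∈ Ker := by
    intro g g00 g01 g10 g11 hc
    have hcu : IsCoprime ((N : ℤ) * g 1 0) ((ℓ : ℤ) ^ 2) :=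
      ((hcop.mul_right (hpr.coprime_iff_not_dvd.mpr hc)).symm).pow_right
    obtain ⟨x, y, hxy⟩ := hcu
    set s := (1 - g 0 0) * x
    set g₁ := ModularGroup.T ^ ((N : ℤ) * s) * g with hg₁
    have a1 : g₁ 0 0 = g 0 0 + (N : ℤ) * s * g 1 0 := by
      simp [hg₁, Matrix.mul_apply, Fin.sum_univ_two, ModularGroup.coe_T_zpow]
    have b1 : g₁ 0 1 = g 0 1 + (N : ℤ) * s * g 1 1 := by
      simp [hg₁, Matrix.mul_apply, Fin.sum_univ_two, ModularGroup.coe_T_zpow]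
    have c1 : g₁ 1 0 = g 1 0 := by
      simp [hg₁, Matrix.mul_apply, Fin.sum_univ_two, ModularGroup.coe_T_zpow]
    obtain ⟨c₀, hc₀⟩ := g10
    set g₂ := lZ ((N : ℤ) * -c₀) * g₁ with hg₂
    have a2 : g₂ 0 0 = g₁ 0 0 := by simp [hg₂, lZ, Matrix.mul_apply, Fin.sum_univ_two]
    have b2 : g₂ 0 1 = g₁ 0 1 := by simp [hg₂, lZ, Matrix.mul_apply, Fin.sum_univ_two]
    have c2 : g₂ 1 0 = g₁ 1 0 * (1 - g₁ 0 0) := by
      simp [hg₂, lZ, Matrix.mul_apply, Fin.sum_univ_two]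
      rw [c1, hc₀]; ring
    set g₃ := ModularGroup.T ^ (-(g₂ 0 1)) * g₂ with hg₃
    have a3 : g₃ 0 0 = g₂ 0 0 - g₂ 0 1 * g₂ 1 0 := by
      simp [hg₃, Matrix.mul_apply, Fin.sum_univ_two, ModularGroup.coe_T_zpow]; ring
    have b3 : g₃ 0 1 = g₂ 0 1 * (1 - g₂ 1 1) := by
      simp [hg₃, Matrix.mul_apply, Fin.sum_univ_two, ModularGroup.coe_T_zpow]; ring
    have c3 : g₃ 1 0 = g₂ 1 0 := by
      simp [hg₃, Matrix.mul_apply, Fin.sum_univ_two, ModularGroup.coe_T_zpow]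
    have d3 : g₃ 1 1 = g₂ 1 1 := by
      simp [hg₃, Matrix.mul_apply, Fin.sum_univ_two, ModularGroup.coe_T_zpow]
    have hA : (ℓ : ℤ) ^ 2 ∣ g₁ 0 0 - 1 := ⟨(g 0 0 - 1) * y, by
      rw [a1]; linear_combination (1 - g 0 0) * hxy⟩
    have hA' : (N : ℤ) ∣ g₁ 0 0 - 1 := by
      rw [a1, add_sub_right_comm]; exact dvd_add g00 ((dvd_mul_right _ _).mul_right _)
    have hB : (N : ℤ) ∣ g₁ 0 1 := by
      rw [b1]; exact dvd_add g01 ((dvd_mul_right _ _).mul_right _)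
    have hNc : ((N : ℤ) * ℓ ^ 2) ∣ g₂ 1 0 := by
      rw [c2, c1, hc₀, mul_assoc]
      exact mul_dvd_mul_left _ (dvd_mul_of_dvd_right (dvd_sub_comm.mp hA) _)
    have hD : ((N : ℤ) * ℓ ^ 2) ∣ g₂ 1 1 - 1 := by
      have hAA := hcop.symm.pow_right (n := 2) |>.mul_dvd hA' hA
      rw [← a2] at hAA
      have hdet := g₂.2
      rw [Matrix.det_fin_two] at hdet
      rw [show g₂ 1 1 - 1 = g₂ 0 1 * g₂ 1 0 - (g₂ 0 0 - 1) * g₂ 1 1 by linear_combination hdet]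
      exact dvd_sub (hNc.mul_left _) (hAA.mul_right _)
    have h3 : g₃ ∈ Ker := by
      have hG : g₃ ∈ Gamma (N * ℓ ^ 2) := by
        have hn : ((N * ℓ ^ 2 : ℕ) : ℤ) = (N : ℤ) * (ℓ : ℤ) ^ 2 := by push_cast; rfl
        refine Gamma_mem.mpr ⟨intCast_eq_one_iff.mpr ?_,
          (ZMod.intCast_zmod_eq_zero_iff_dvd _ _).mpr ?_,
          (ZMod.intCast_zmod_eq_zero_iff_dvd _ _).mpr (by rw [hn, c3]; exact hNc),
          intCast_eq_one_iff.mpr (by rw [hn, d3]; exact hD)⟩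
        · rw [hn, a3, a2, sub_right_comm]
          exact dvd_sub (hcop.symm.pow_right (n := 2) |>.mul_dvd hA' hA) (hNc.mul_left _)
        · rw [hn, b3]
          exact dvd_mul_of_dvd_right (dvd_sub_comm.mp hD) _
      exact ⟨mem_gamma0_iff_dvd.mpr (c3 ▸ (dvd_mul_right _ _).trans hNc), hdeep _ hG⟩
    have h2 : g₂ ∈ Ker := by
      have := mul_mem (hKT (g₂ 0 1)) h3
      rwa [hg₃, ← mul_assoc, ← zpow_add, add_neg_cancel, zpow_zero, one_mul] at this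
    have h1 : g₁ ∈ Ker := by
      have := mul_mem (inv_mem (hKL (-c₀))) h2
      rwa [hg₂, inv_mul_cancel_left] at this
    have := mul_mem (inv_mem (hKT ((N : ℤ) * s))) h1
    rwa [hg₁, inv_mul_cancel_left] at this
  have hker : ∀ γ ∈ Gamma0 N, (N : ℤ) ∣ γ 1 1 - 1 → φ (toQ γ) = 0 := by
    intro γ hγ hd
    have hc := mem_gamma0_iff_dvd.mp hγ
    have ha : (N : ℤ) ∣ γ 0 0 - 1 := by
      have hdet := γ.2
      rw [Matrix.det_fin_two] at hdet
      rw [show γ 0 0 - 1 = γ 0 1 * γ 1 0 - γ 0 0 * (γ 1 1 - 1) by linear_combination hdet]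
      exact dvd_sub (hc.mul_left _) (hd.mul_left _)
    set g := ModularGroup.T ^ (-(γ 0 1)) * γ with hg'
    have e00 : g 0 0 = γ 0 0 - γ 0 1 * γ 1 0 := by
      simp [hg', Matrix.mul_apply, Fin.sum_univ_two, ModularGroup.coe_T_zpow]; ring
    have e01 : g 0 1 = γ 0 1 * (1 - γ 1 1) := by
      simp [hg', Matrix.mul_apply, Fin.sum_univ_two, ModularGroup.coe_T_zpow]; ring
    have e10 : g 1 0 = γ 1 0 := by
      simp [hg', Matrix.mul_apply, Fin.sum_univ_two, ModularGroup.coe_T_zpow]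
    have e11 : g 1 1 = γ 1 1 := by
      simp [hg', Matrix.mul_apply, Fin.sum_univ_two, ModularGroup.coe_T_zpow]
    have f00 : (N : ℤ) ∣ g 0 0 - 1 := by
      rw [e00, sub_right_comm]; exact dvd_sub ha (hc.mul_left _)
    have f01 : (N : ℤ) ∣ g 0 1 := by rw [e01]; exact dvd_mul_of_dvd_right (dvd_sub_comm.mp hd) _
    clear_value g
    have hgK : g ∈ Ker := by
      by_cases hcℓ : (ℓ : ℤ) ∣ g 1 0
      · have hd' : ¬ (ℓ : ℤ) ∣ g 1 1 := fun h => hpr.not_dvd_one (by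
          have hdet := g.2
          rw [Matrix.det_fin_two] at hdet
          exact hdet ▸ dvd_sub (h.mul_left _) (hcℓ.mul_left _))
        have hm : g * lZ ((N : ℤ) * 1) ∈ Ker := by
          refine hprin _ ?_ ?_ ?_ ?_ ?_ <;>
            simp [Matrix.mul_apply, Fin.sum_univ_two]
          · rw [add_sub_right_comm]; exact dvd_add f00 (f01.mul_right _)
          · exact f01
          · exact e10 ▸ hc
          · exact e11 ▸ hd
          · rw [dvd_add_right hcℓ]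
            exact fun h => (hpr.dvd_or_dvd h).elim hd' fun h => hg.not_dvd (by exact_mod_cast h)
        simpa using mul_mem hm (inv_mem (hKL 1))
      · exact hprin g f00 f01 (e10 ▸ hc) (e11 ▸ hd) hcℓ
    have := mul_mem (hKT (γ 0 1)) hgK
    rw [hg', ← mul_assoc, ← zpow_add, add_neg_cancel, zpow_zero, one_mul] at this
    exact this.2
  -- the value depends on the lower right entry only
  intro γ hγ
  have hsame : ∀ i, φ (toQ (trCoef hgB ⟨γ, hγ⟩ i : SL(2, ℤ))) = φ (toQ γ) := by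
    intro i
    set g := trCoef hgB ⟨γ, hγ⟩ i
    have hgd : (N : ℤ) ∣ (g : SL(2, ℤ)) 1 1 - γ 1 1 := by
      have e := congrFun (congrFun (trSpec hgB ⟨γ, hγ⟩ i) 1) 1
      simp [gMat, Matrix.mul_apply, Fin.sum_univ_two] at e
      have hc := mem_gamma0_iff_dvd.mp g.2
      rw [← ZMod.intCast_zmod_eq_zero_iff_dvd] at hc hB1 ⊢
      push_cast at hB1 ⊢
      rw [sub_eq_zero] at hB1
      have e' := congrArg (fun z : ℤ => (z : ZMod N)) e
      push_cast at e'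
      rw [hc, zero_mul, zero_add] at e'
      generalize trIdx hgB ⟨γ, hγ⟩ i = j at e'
      rcases i with _ | b <;> rcases j with _ | c <;>
        simp [heckeRep, hB1] at e' ⊢ <;> linear_combination -e'
    have hm : γ⁻¹ * g ∈ Gamma0 N := mul_mem (inv_mem hγ) g.2
    have h0 : φ (toQ (γ⁻¹ * g)) = 0 := hker _ hm (by
      have hc := mem_gamma0_iff_dvd.mp hγ
      simp [Matrix.mul_apply, Fin.sum_univ_two, Matrix.adjugate_fin_two]
      have hdet := γ.2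
      rw [Matrix.det_fin_two] at hdet
      rw [show -(γ 1 0 * (g : SL(2, ℤ)) 0 1) + γ 0 0 * (g : SL(2, ℤ)) 1 1 - 1 =
        γ 0 0 * ((g : SL(2, ℤ)) 1 1 - γ 1 1) + γ 1 0 * (-(g : SL(2, ℤ)) 0 1 - -γ 0 1) by
          linear_combination hdet]
      exact dvd_add (hgd.mul_left _) (hc.mul_right _))
    rw [map_mul, map_inv, hadd _ (inv_mem (toQ_mem hγ)) _ (toQ_mem g.2),
      IsLevHom.map_inv hadd (toQ_mem hγ)] at h0
    exact (neg_add_eq_zero.mp h0).symm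
  have h5 := heigB ⟨γ, hγ⟩
  rw [Finset.sum_congr rfl fun i _ => hsame i, Finset.sum_const, Finset.card_univ,
    Fintype.card_option, Fintype.card_fin, ← Nat.cast_smul_eq_nsmul R, Nat.cast_add, Nat.cast_one] at h5
  refine hneB _ ?_
  simp only at h5
  rw [sub_smul, h5, sub_self]

end Fermat.Agent.R59.Raise
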